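import Fermat.Agent.GR.F.Main
import Fermat.Agent.GR.H.Iface

/-!
# Project GS, half FW (Frobenius at `q ∥ N` and wiring): definitions

`N = N₁ * q`, `q ∤ N₁`, `A` a valuation subring of `ℚ̄` over `q`, `n` prime to `q`.

* `NearOne A N y`: `y` is a constant times a function which is `≡ 1` at the Gauss valuation `v_∞`
  of `A` on `FF ℚ̄ N` (coefficientwise valuation of the expansion at `∞`).
* `PowAt A N n y`: `y` is an `n`-th power at `v_∞` (the class of `y` lies in `K_∞`).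
* `IsAtkinLehner N₁ q w`: `w` is the Atkin-Lehner involution `w_q` of `FF ℚ̄ (N₁ q)`.
* `opA, opB, opC`: the multiplicative operators `σ - U_q`, `σ U_q - q`, `σ² - q²`.
* `UnipAt`, `KAt` (the two inputs, delivered by GS-CONC), `FrobBadAt` (the output of FW).
* `TateUnip`, `TateFrobBad`: the same statements for a `GR.H.TateData`.
-/

set_option autoImplicit false

noncomputable section

namespace Fermat.Agent.GS.FW

open Fermat.Agent.GR Fermat.Agent.GR.H ModularCurve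

/-- `y` is a nonzero constant times `a / b` with `a ≡ b` modulo `𝔪_A`, `a` primitive. -/
def NearOne (A : ValuationSubring Qbar) (N : ℕ) (y : LaurentSeries Qbar) : Prop :=
  ∃ (c : Qbar) (a b : LaurentSeries Qbar), c ≠ 0 ∧ a ∈ FF Qbar N ∧ b ∈ FF Qbar N ∧
    IsPrim A a ∧ IsInt A b ∧ Cong A a b ∧ y = HahnSeries.C c * (a / b)

/-- `y` is an `n`-th power at the Gauss valuation of `A`. -/
def PowAt (A : ValuationSubring Qbar) (N n : ℕ) (y : LaurentSeries Qbar) : Prop :=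
  ∃ z ∈ FF Qbar N, z ≠ 0 ∧ NearOne A N (y * z ^ n)

/-- `w` exchanges `j(t^d)` and `j(t^(d q))` for all `d ∣ N₁`. -/
def IsAtkinLehner (N₁ q : ℕ) (w : FF Qbar (N₁ * q) ≃ₐ[Qbar] FF Qbar (N₁ * q)) : Prop :=
  ∀ (d : ℕ) [NeZero d] [NeZero (d * q)], d ∣ N₁ → ∀ x y : FF Qbar (N₁ * q),
    (x : LaurentSeries Qbar) = qExpand Qbar d (jqModC Qbar) →
    (y : LaurentSeries Qbar) = qExpand Qbar (d * q) (jqModC Qbar) → w x = y ∧ w y = x

/-- `σ - U_q`, multiplicatively. -/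
def opA (q : ℕ) [NeZero q] (ζ : Qbarˣ) (σ : GQ) (u : LaurentSeries Qbar) : LaurentSeries Qbar :=
  gal σ u / normT q ζ u

/-- `σ U_q - q`, multiplicatively. -/
def opB (q : ℕ) [NeZero q] (ζ : Qbarˣ) (σ : GQ) (u : LaurentSeries Qbar) : LaurentSeries Qbar :=
  gal σ (normT q ζ u) / u ^ q

/-- `σ² - q²`, multiplicatively. -/
def opC (q : ℕ) (σ : GQ) (u : LaurentSeries Qbar) : LaurentSeries Qbar :=
  gal σ (gal σ u) / u ^ (q ^ 2)

/-- (U) [input, GS-CONC]: `(σ - 1)² = 0` on Kummer classes, `σ` in the inertia group of `A`. -/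
def UnipAt (N n : ℕ) (A : ValuationSubring Qbar) : Prop :=
  ∀ σ ∈ A.inertiaSubgroupIn ℚ, ∀ u : LaurentSeries Qbar, IsKummer (N := N) n u →
    KummerEquiv N n (gal σ u ^ 2) (gal σ (gal σ u) * u)

/-- (K) [input, GS-CONC]: `σ² = q²` on `K_∞ ∩ K_0`, `σ` a Frobenius element at `A`. -/
def KAt (N₁ q n : ℕ) (A : ValuationSubring Qbar)
    (w : FF Qbar (N₁ * q) ≃ₐ[Qbar] FF Qbar (N₁ * q)) : Prop :=
  ∀ σ : GQ, A.IsFrobeniusAt σ q → ∀ y : FF Qbar (N₁ * q),
    IsKummer (N := N₁ * q) n (y : LaurentSeries Qbar) →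
    PowAt A (N₁ * q) n (y : LaurentSeries Qbar) →
    PowAt A (N₁ * q) n ((w y : FF Qbar (N₁ * q)) : LaurentSeries Qbar) →
    KummerEquiv (N₁ * q) n 1 (opC q σ (y : LaurentSeries Qbar))

/-- (F) [output]: `(σ² - q²)(σ U_q - q)(σ - U_q) = 0` on Kummer classes. -/
def FrobBadAt (N n q : ℕ) [NeZero q] (ζ : Qbarˣ) (A : ValuationSubring Qbar) : Prop :=
  ∀ σ : GQ, A.IsFrobeniusAt σ q → ∀ u : LaurentSeries Qbar, IsKummer (N := N) n u →
    KummerEquiv N n 1 (opC q σ (opB q ζ σ (opA q ζ σ u)))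

/-- Kummer functions are stable under `U_q` (GR-B; field `normStable` of `GR.I.KummerData`). -/
def NormStable (N n q : ℕ) [NeZero q] (ζ : Qbarˣ) : Prop :=
  ∀ u : LaurentSeries Qbar, IsKummer (N := N) n u → IsKummer (N := N) n (normT q ζ u)

variable {N : ℕ} [NeZero N] {p : ℕ}

/-- inertia at `q` acts unipotently on `Λ / p^k`. -/
def TateUnip (D : TateData N p) (q : ℕ) : Prop :=
  ∀ A : ValuationSubring (AlgebraicClosure ℚ), A.LiesOverPrime q →
    ∀ σ ∈ A.inertiaSubgroupIn ℚ, ∀ k, EndCong (p ^ k) ((D.gal k σ - 1) * (D.gal k σ - 1)) 0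

/-- `(σ² - q²)(σ U_q - q)(σ - U_q) = 0` on `Λ / p^k` for Frobenius elements at `q ∣ N`. -/
def TateFrobBad (D : TateData N p) {q : ℕ} (hq : q.Prime) (hqN : q ∣ N) : Prop :=
  ∀ A : ValuationSubring (AlgebraicClosure ℚ), A.LiesOverPrime q →
    ∀ σ : GQ, A.IsFrobeniusAt σ q → ∀ k,
      EndCong (p ^ k)
        ((D.gal k σ * D.gal k σ - ((q : ℤ) ^ 2) • 1) *
          ((D.gal k σ * D.hecke (CuspForm.heckeAlgebra.U hq hqN (Set.notMem_empty q)) -
              (q : ℤ) • 1) *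
            (D.gal k σ - D.hecke (CuspForm.heckeAlgebra.U hq hqN (Set.notMem_empty q))))) 0

end Fermat.Agent.GS.FW
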