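import Fermat.Agent.GS.FW.Defs
import Fermat.Agent.GR.I.Level

/-!
# GS-FW: formal consequences of `IsAtkinLehner`

`w` is determined by its values on the generators `j(t^d)`, `d ∣ N₁ q`, of `FF ℚ̄ (N₁ q)`:
it is an involution, it is `f ↦ f(t^q)` on `FF ℚ̄ N₁`, it commutes with the Galois action on
coefficients, and (being an automorphism over `ℚ̄`) it preserves Kummer functions.
-/

set_option autoImplicit false

noncomputable section

namespace Fermat.Agent.GS.FW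

open Fermat.Agent.GR Fermat.Agent.GR.H ModularCurve

variable {N₁ q n : ℕ} {w : FF Qbar (N₁ * q) ≃ₐ[Qbar] FF Qbar (N₁ * q)}

theorem FF_mono {N N' : ℕ} (h : N ∣ N') : FF Qbar N ≤ FF Qbar N' := by
  show modularFunctionFieldFullC Qbar N ≤ modularFunctionFieldFullC Qbar N'
  rw [modularFunctionFieldFullC, IntermediateField.adjoin_le_iff]
  rintro x ⟨d, hne, hdvd, rfl⟩
  exact jqModCd_mem_full Qbar N' (hdvd.trans h)

theorem qExpand_mem_FF {N : ℕ} (ℓ : ℕ) [NeZero ℓ] {f : LaurentSeries Qbar} (hf : f ∈ FF Qbar N) :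
    qExpand Qbar ℓ f ∈ FF Qbar (N * ℓ) :=
  full_degeneracyC_map_le Qbar N ℓ ⟨f, hf, rfl⟩

/-- the divisors of `N₁ q`. -/
theorem AL_dvd_cases (hq : q.Prime) {d : ℕ} (hd : d ∣ N₁ * q) :
    d ∣ N₁ ∨ ∃ d', d' ∣ N₁ ∧ d = d' * q := by
  obtain ⟨k₁, k₂, h₁, h₂, rfl⟩ := (Nat.dvd_mul).1 hd
  rcases (Nat.dvd_prime hq).1 h₂ with rfl | rfl
  · left; rwa [mul_one]
  · exact Or.inr ⟨k₁, h₁, rfl⟩

/-- the values of `w` on the generators. -/
theorem AL_gen [NeZero N₁] (hq : q.Prime) (hw : IsAtkinLehner N₁ q w) {d : ℕ} (hd : d ∣ N₁ * q)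
    [NeZero d] :
    ∃ (d' : ℕ) (_ : NeZero d') (hd' : d' ∣ N₁ * q),
      w ⟨qExpand Qbar d (jqModC Qbar), jqModCd_mem_full Qbar _ hd⟩ =
        ⟨qExpand Qbar d' (jqModC Qbar), jqModCd_mem_full Qbar _ hd'⟩ ∧
      w ⟨qExpand Qbar d' (jqModC Qbar), jqModCd_mem_full Qbar _ hd'⟩ =
        ⟨qExpand Qbar d (jqModC Qbar), jqModCd_mem_full Qbar _ hd⟩ := by
  rcases AL_dvd_cases hq hd with h | ⟨e, he, rfl⟩
  · have : NeZero (d * q) := ⟨mul_ne_zero (NeZero.ne d) hq.ne_zero⟩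
    exact ⟨d * q, this, Nat.mul_dvd_mul_right h q, hw d h _ _ rfl rfl⟩
  · have he0 : NeZero e := ⟨fun h0 => NeZero.ne (e * q) (by rw [h0, zero_mul])⟩
    exact ⟨e, he0, he.trans (Dvd.intro _ rfl), (hw e he _ _ rfl rfl).symm⟩

/-- `w ∘ w = id`. -/
theorem IsAtkinLehner.apply_apply [NeZero N₁] (hq : q.Prime) (hw : IsAtkinLehner N₁ q w)
    (x : FF Qbar (N₁ * q)) : w (w x) = x := by
  have h : ((w : FF Qbar (N₁ * q) →ₐ[Qbar] FF Qbar (N₁ * q)).comp
      (w : FF Qbar (N₁ * q) →ₐ[Qbar] FF Qbar (N₁ * q))) = AlgHom.id Qbar _ := by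
    apply IntermediateField.adjoin_algHom_ext
    rintro x ⟨d, hne, hdvd, rfl⟩
    obtain ⟨d', _, hd', h1, h2⟩ := AL_gen hq hw hdvd
    show w (w _) = _
    exact (congrArg w h1).trans h2
  exact congrArg (fun f : FF Qbar (N₁ * q) →ₐ[Qbar] FF Qbar (N₁ * q) => f x) h

/-- on `FF ℚ̄ N₁` the involution is `f ↦ f(t^q)`. -/
theorem IsAtkinLehner.apply_of_mem [NeZero N₁] [NeZero q] (hq : q.Prime)
    (hw : IsAtkinLehner N₁ q w) (x : FF Qbar (N₁ * q))
    (hx : (x : LaurentSeries Qbar) ∈ FF Qbar N₁) :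
    ((w x : FF Qbar (N₁ * q)) : LaurentSeries Qbar) = qExpand Qbar q (x : LaurentSeries Qbar) := by
  have hle : FF Qbar N₁ ≤ FF Qbar (N₁ * q) := FF_mono (Dvd.intro _ rfl)
  have key : ∀ (y : LaurentSeries Qbar) (hy : y ∈ FF Qbar N₁),
      ((w ⟨y, hle hy⟩ : FF Qbar (N₁ * q)) : LaurentSeries Qbar) = qExpand Qbar q y := by
    intro y hy
    induction hy using IntermediateField.adjoin_induction with
    | mem y hy =>
      obtain ⟨d, hne, hdvd, rfl⟩ := hy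
      have : NeZero (d * q) := ⟨mul_ne_zero (NeZero.ne d) hq.ne_zero⟩
      have h1 := (hw d hdvd ⟨qExpand Qbar d (jqModC Qbar), hle (jqModCd_mem_full Qbar _ hdvd)⟩
        ⟨qExpand Qbar (d * q) (jqModC Qbar),
          jqModCd_mem_full Qbar _ (Nat.mul_dvd_mul_right hdvd q)⟩ rfl rfl).1
      rw [h1, qExpand_qExpand]
      exact qExpand_congr (mul_comm d q) _
    | algebraMap a =>
      have h1 : (⟨algebraMap Qbar (LaurentSeries Qbar) a, hle (algebraMap_mem _ a)⟩ :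
          FF Qbar (N₁ * q)) = algebraMap Qbar (FF Qbar (N₁ * q)) a := rfl
      rw [h1, w.commutes]
      exact ((qExpandAlgHomC Qbar q).commutes a).symm
    | add y z hy hz ihy ihz =>
      have h1 : (⟨y + z, hle (add_mem hy hz)⟩ : FF Qbar (N₁ * q)) =
          ⟨y, hle hy⟩ + ⟨z, hle hz⟩ := rfl
      rw [h1, map_add, map_add, ← ihy, ← ihz]
      rfl
    | inv y hy ihy =>
      have h1 : (⟨y⁻¹, hle (inv_mem hy)⟩ : FF Qbar (N₁ * q)) = (⟨y, hle hy⟩ : FF Qbar (N₁ * q))⁻¹ :=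
        rfl
      rw [h1, map_inv₀, map_inv₀, ← ihy]
      rfl
    | mul y z hy hz ihy ihz =>
      have h1 : (⟨y * z, hle (mul_mem hy hz)⟩ : FF Qbar (N₁ * q)) =
          ⟨y, hle hy⟩ * ⟨z, hle hz⟩ := rfl
      rw [h1, map_mul, map_mul, ← ihy, ← ihz]
      rfl
  exact key x hx

/-- `w` commutes with the Galois action on coefficients. -/
theorem IsAtkinLehner.gal_comm [NeZero N₁] (hq : q.Prime) (hw : IsAtkinLehner N₁ q w) (σ : GQ)
    (x x' : FF Qbar (N₁ * q)) (hx : (x' : LaurentSeries Qbar) = gal σ (x : LaurentSeries Qbar)) :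
    ((w x' : FF Qbar (N₁ * q)) : LaurentSeries Qbar) =
      gal σ ((w x : FF Qbar (N₁ * q)) : LaurentSeries Qbar) := by
  have hgal : ∀ {y : LaurentSeries Qbar}, y ∈ FF Qbar (N₁ * q) → gal σ y ∈ FF Qbar (N₁ * q) :=
    fun hy => Fermat.Agent.GR.coeffMap_mem_FF _ hy
  have key : ∀ (y : LaurentSeries Qbar) (hy : y ∈ FF Qbar (N₁ * q)),
      ((w ⟨gal σ y, hgal hy⟩ : FF Qbar (N₁ * q)) : LaurentSeries Qbar) =
        gal σ ((w ⟨y, hy⟩ : FF Qbar (N₁ * q)) : LaurentSeries Qbar) := by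
    intro y hy
    induction hy using IntermediateField.adjoin_induction with
    | mem y hy =>
      obtain ⟨d, hne, hdvd, rfl⟩ := hy
      have hfix : ∀ (e : ℕ) [NeZero e], gal σ (qExpand Qbar e (jqModC Qbar)) =
          qExpand Qbar e (jqModC Qbar) := by
        intro e _
        show coeffMap _ _ = _
        rw [coeffMap_qExpand, coeffMap_jqModC]
      obtain ⟨d', _, hd', h1, -⟩ := AL_gen hq hw hdvd
      have h2 : (⟨gal σ (qExpand Qbar d (jqModC Qbar)),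
          hgal (IntermediateField.subset_adjoin _ _ ⟨d, hne, hdvd, rfl⟩)⟩ : FF Qbar (N₁ * q)) =
          ⟨qExpand Qbar d (jqModC Qbar), jqModCd_mem_full Qbar _ hdvd⟩ := Subtype.ext (hfix d)
      have h3 : (⟨qExpand Qbar d (jqModC Qbar),
          IntermediateField.subset_adjoin _ _ ⟨d, hne, hdvd, rfl⟩⟩ : FF Qbar (N₁ * q)) =
          ⟨qExpand Qbar d (jqModC Qbar), jqModCd_mem_full Qbar _ hdvd⟩ := rfl
      rw [h2, h3, h1]
      exact (hfix d').symm
    | algebraMap a =>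
      have hga : gal σ (algebraMap Qbar (LaurentSeries Qbar) a) =
          algebraMap Qbar (LaurentSeries Qbar) (σ a) := by
        show coeffMap _ _ = _
        rw [C.coeffMap_algebraMap']
        rfl
      have h1 : (⟨algebraMap Qbar (LaurentSeries Qbar) a, algebraMap_mem _ a⟩ :
          FF Qbar (N₁ * q)) = algebraMap Qbar (FF Qbar (N₁ * q)) a := rfl
      have h2 : (⟨gal σ (algebraMap Qbar (LaurentSeries Qbar) a), hgal (algebraMap_mem _ a)⟩ :
          FF Qbar (N₁ * q)) = algebraMap Qbar (FF Qbar (N₁ * q)) (σ a) := Subtype.ext hga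
      rw [h1, h2, w.commutes, w.commutes]
      exact hga.symm
    | add y z hy hz ihy ihz =>
      have h1 : (⟨y + z, add_mem hy hz⟩ : FF Qbar (N₁ * q)) = ⟨y, hy⟩ + ⟨z, hz⟩ := rfl
      have h2 : (⟨gal σ (y + z), hgal (add_mem hy hz)⟩ : FF Qbar (N₁ * q)) =
          ⟨gal σ y, hgal hy⟩ + ⟨gal σ z, hgal hz⟩ := Subtype.ext (map_add _ _ _)
      rw [h1, h2, map_add, map_add]
      show ((w _ : FF Qbar (N₁ * q)) : LaurentSeries Qbar) + ((w _ : FF Qbar (N₁ * q)) :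
        LaurentSeries Qbar) = gal σ (((w _ : FF Qbar (N₁ * q)) : LaurentSeries Qbar) +
          ((w _ : FF Qbar (N₁ * q)) : LaurentSeries Qbar))
      rw [map_add, ihy, ihz]
    | inv y hy ihy =>
      have h1 : (⟨y⁻¹, inv_mem hy⟩ : FF Qbar (N₁ * q)) = (⟨y, hy⟩ : FF Qbar (N₁ * q))⁻¹ := rfl
      have h2 : (⟨gal σ y⁻¹, hgal (inv_mem hy)⟩ : FF Qbar (N₁ * q)) =
          (⟨gal σ y, hgal hy⟩ : FF Qbar (N₁ * q))⁻¹ := Subtype.ext (map_inv₀ _ _)
      rw [h1, h2, map_inv₀, map_inv₀]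
      show (((w _ : FF Qbar (N₁ * q)) : LaurentSeries Qbar))⁻¹ =
        gal σ (((w _ : FF Qbar (N₁ * q)) : LaurentSeries Qbar))⁻¹
      rw [map_inv₀, ihy]
    | mul y z hy hz ihy ihz =>
      have h1 : (⟨y * z, mul_mem hy hz⟩ : FF Qbar (N₁ * q)) = ⟨y, hy⟩ * ⟨z, hz⟩ := rfl
      have h2 : (⟨gal σ (y * z), hgal (mul_mem hy hz)⟩ : FF Qbar (N₁ * q)) =
          ⟨gal σ y, hgal hy⟩ * ⟨gal σ z, hgal hz⟩ := Subtype.ext (map_mul _ _ _)
      rw [h1, h2, map_mul, map_mul]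
      show ((w _ : FF Qbar (N₁ * q)) : LaurentSeries Qbar) * ((w _ : FF Qbar (N₁ * q)) :
        LaurentSeries Qbar) = gal σ (((w _ : FF Qbar (N₁ * q)) : LaurentSeries Qbar) *
          ((w _ : FF Qbar (N₁ * q)) : LaurentSeries Qbar))
      rw [map_mul, ihy, ihz]
  have hx' : x' = ⟨gal σ (x : LaurentSeries Qbar), hgal x.2⟩ := Subtype.ext hx
  rw [hx']
  exact key x x.2

/-- an automorphism of the function field over the constants preserves Kummer functions. -/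
theorem isKummer_algEquiv {N : ℕ} (e : FF Qbar N ≃ₐ[Qbar] FF Qbar N) (x : FF Qbar N)
    (hx : IsKummer (N := N) n (x : LaurentSeries Qbar)) :
    IsKummer (N := N) n ((e x : FF Qbar N) : LaurentSeries Qbar) := by
  obtain ⟨h0, hmem, hord⟩ := hx
  have hx0 : x ≠ 0 := fun h => h0 (by rw [h]; rfl)
  refine ⟨fun h => (map_ne_zero e).2 hx0 (Subtype.ext h), (e x).2, fun v => ?_⟩
  have h := AlgebraicCurve.Place.ord_smul e (e⁻¹ • v) x
  rw [smul_inv_smul] at h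
  show (n : ℤ) ∣ v.ord (e x)
  rw [h]
  exact hord _

end Fermat.Agent.GS.FW
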