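import Fermat.Agent.GS.FW.Defs
import Fermat.Agent.GR.H.Limit

/-!
# GS-FW (W3): the relation (F) on `𝒪 ⊗ Λ`

`GR.H.exists_bigRep` forgets that `B.r σ` is the limit of the `D.gal k σ`; we need it.
-/

set_option autoImplicit false

open scoped TensorProduct

namespace Fermat.Agent.GS.FW

open Fermat.Agent.GR.H

variable {N : ℕ} [NeZero N] {p : ℕ}

/-- copy of the proof of `GR.H.exists_bigRep`, keeping `hr`. -/
theorem exists_bigRep_cong (D : TateData N p) (𝒪 : Type) [CommRing 𝒪] [IsLocalRing 𝒪]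
    [IsNoetherianRing 𝒪] [IsAdicComplete (IsLocalRing.maximalIdeal 𝒪) 𝒪]
    (hp : (p : 𝒪) ∈ IsLocalRing.maximalIdeal 𝒪) :
    ∃ B : BigRep D 𝒪, ∀ σ k, Limit_Cong (p : 𝒪) k (B.r σ) ((D.gal k σ).baseChange 𝒪) := by
  have hcomplete : IsAdicComplete (IsLocalRing.maximalIdeal 𝒪)
      (Module.End 𝒪 (𝒪 ⊗[ℤ] D.Λ)) :=
    IsAdicComplete.of_module_finite _ _
  have hex : ∀ σ : GQ, ∃ L : Module.End 𝒪 (𝒪 ⊗[ℤ] D.Λ),
      ∀ k, Limit_Cong (p : 𝒪) k L ((D.gal k σ).baseChange 𝒪) := fun σ =>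
    Limit_exists_limit (IsLocalRing.maximalIdeal 𝒪) hp _
      (fun k => Limit_cong_baseChange 𝒪 (D.gal_succ k σ))
  choose r hr using hex
  have heq : ∀ {a b : Module.End 𝒪 (𝒪 ⊗[ℤ] D.Λ)}, (∀ k, Limit_Cong (p : 𝒪) k a b) → a = b :=
    fun h => Limit_eq_of_forall_cong (IsLocalRing.maximalIdeal 𝒪) hp h
  have hone : r 1 = 1 := heq fun k => by
    have := (hr 1 k).trans (Limit_cong_baseChange 𝒪 (D.gal_one k))
    rwa [LinearMap.baseChange_one] at this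
  have hmul : ∀ σ τ, r (σ * τ) = r σ * r τ := fun σ τ => heq fun k => by
    have := (hr (σ * τ) k).trans (Limit_cong_baseChange 𝒪 (D.gal_mul k σ τ))
    rw [LinearMap.baseChange_mul] at this
    exact this.trans ((hr σ k).mul (hr τ k)).symm
  refine ⟨{ r := { toFun := r, map_one' := hone, map_mul' := hmul }
            comm_hecke := ?_, conj := ?_, unram := ?_, frob := ?_, level := ?_ }, hr⟩
  · intro σ t
    refine heq fun k => ?_
    have h1 := (hr σ k).mul (Limit_Cong.refl (π := (p : 𝒪)) (k := k) ((D.hecke t).baseChange 𝒪))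
    have h2 := (Limit_Cong.refl (π := (p : 𝒪)) (k := k) ((D.hecke t).baseChange 𝒪)).mul (hr σ k)
    have h3 := Limit_cong_baseChange 𝒪 (D.gal_hecke k σ t)
    rw [LinearMap.baseChange_mul, LinearMap.baseChange_mul] at h3
    exact h1.trans (h3.trans h2.symm)
  · obtain ⟨c, hc⟩ := D.gal_conj
    exact ⟨c, heq fun k => (hr c k).trans (Limit_cong_baseChange 𝒪 (hc k))⟩
  · intro q hq hqN hqp A hA σ hσ
    refine heq fun k => ?_
    have := (hr σ k).trans (Limit_cong_baseChange 𝒪 (D.gal_unram q hq hqN hqp A hA σ hσ k))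
    rwa [LinearMap.baseChange_one] at this
  · intro ℓ hℓ hℓN hℓp A hA σ hσ
    refine heq fun k => ?_
    have h3 := Limit_cong_baseChange 𝒪 (D.gal_frob ℓ hℓ hℓN hℓp A hA σ hσ k)
    have hl : ((ℓ : ℤ) • (1 : Module.End ℤ D.Λ)).baseChange 𝒪 =
        (ℓ : 𝒪) • (1 : Module.End 𝒪 (𝒪 ⊗[ℤ] D.Λ)) := by
      rw [LinearMap.baseChange_smul, LinearMap.baseChange_one,
        ← IsScalarTower.algebraMap_smul 𝒪 (ℓ : ℤ) (1 : Module.End 𝒪 (𝒪 ⊗[ℤ] D.Λ))]
      simp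
    rw [LinearMap.baseChange_add, LinearMap.baseChange_sub, LinearMap.baseChange_mul,
      LinearMap.baseChange_mul, hl, LinearMap.baseChange_zero] at h3
    refine Limit_Cong.trans ?_ h3
    exact (((hr σ k).mul (hr σ k)).sub ((Limit_Cong.refl _).mul (hr σ k))).add (Limit_Cong.refl _)
  · intro k
    obtain ⟨L, hL, hfix⟩ := D.gal_level k
    refine ⟨L, hL, fun σ hσ => ?_⟩
    have := (hr σ k).trans (Limit_cong_baseChange 𝒪 (hfix σ hσ))
    rwa [LinearMap.baseChange_one] at this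

theorem bigRep_frobBad (D : TateData N p) (𝒪 : Type) [CommRing 𝒪] [IsLocalRing 𝒪]
    [IsNoetherianRing 𝒪] [IsAdicComplete (IsLocalRing.maximalIdeal 𝒪) 𝒪]
    (hp : (p : 𝒪) ∈ IsLocalRing.maximalIdeal 𝒪) (B : BigRep D 𝒪)
    (hB : ∀ σ k, Limit_Cong (p : 𝒪) k (B.r σ) ((D.gal k σ).baseChange 𝒪))
    {q : ℕ} (hq : q.Prime) (hqN : q ∣ N) (h : TateFrobBad D hq hqN)
    (A : ValuationSubring (AlgebraicClosure ℚ)) (hA : A.LiesOverPrime q) (σ : GQ)
    (hσ : A.IsFrobeniusAt σ q) :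
    (B.r σ * B.r σ - ((q : 𝒪) ^ 2) • 1) *
      ((B.r σ * (D.hecke (CuspForm.heckeAlgebra.U hq hqN (Set.notMem_empty q))).baseChange 𝒪 -
          (q : 𝒪) • 1) *
        (B.r σ - (D.hecke (CuspForm.heckeAlgebra.U hq hqN (Set.notMem_empty q))).baseChange 𝒪)) =
      0 := by
  have hcomplete : IsAdicComplete (IsLocalRing.maximalIdeal 𝒪)
      (Module.End 𝒪 (𝒪 ⊗[ℤ] D.Λ)) :=
    IsAdicComplete.of_module_finite _ _
  refine Limit_eq_of_forall_cong (IsLocalRing.maximalIdeal 𝒪) hp fun k => ?_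
  have h3 := Limit_cong_baseChange 𝒪 (h A hA σ hσ k)
  have hl : ((q : ℤ) • (1 : Module.End ℤ D.Λ)).baseChange 𝒪 =
      (q : 𝒪) • (1 : Module.End 𝒪 (𝒪 ⊗[ℤ] D.Λ)) := by
    rw [LinearMap.baseChange_smul, LinearMap.baseChange_one,
      ← IsScalarTower.algebraMap_smul 𝒪 (q : ℤ) (1 : Module.End 𝒪 (𝒪 ⊗[ℤ] D.Λ))]
    simp
  have hl2 : (((q : ℤ) ^ 2) • (1 : Module.End ℤ D.Λ)).baseChange 𝒪 =
      ((q : 𝒪) ^ 2) • (1 : Module.End 𝒪 (𝒪 ⊗[ℤ] D.Λ)) := by
    rw [LinearMap.baseChange_smul, LinearMap.baseChange_one,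
      ← IsScalarTower.algebraMap_smul 𝒪 ((q : ℤ) ^ 2) (1 : Module.End 𝒪 (𝒪 ⊗[ℤ] D.Λ))]
    simp
  rw [LinearMap.baseChange_mul, LinearMap.baseChange_mul, LinearMap.baseChange_sub,
    LinearMap.baseChange_sub, LinearMap.baseChange_sub, LinearMap.baseChange_mul,
    LinearMap.baseChange_mul, hl, hl2, LinearMap.baseChange_zero] at h3
  refine Limit_Cong.trans ?_ h3
  exact (((hB σ k).mul (hB σ k)).sub (Limit_Cong.refl _)).mul
    ((((hB σ k).mul (Limit_Cong.refl _)).sub (Limit_Cong.refl _)).mul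
      ((hB σ k).sub (Limit_Cong.refl _)))

end Fermat.Agent.GS.FW
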