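import Mathlib

/-!
# GS-FW (W3): linear algebra for S35

`f` on a free module of rank two over a domain of characteristic zero, `det f = q`, `a² = 1`,
`(f² - q²)(a f - q)(f - a) = 0`.  Then `tr f = a (q + 1)`.
PROOF.  Cayley-Hamilton `f² = t f - q`.  Reducing modulo it:
`(f² - q²)(a f - q)(f - a) = (a t - 1 - q) • ((t² - q - q²) • f - (t q) • 1)`.
If `a t ≠ 1 + q` then `(t² - q - q²) f = t q`; taking trace and determinant:
`t (t² - 3 q - q²) = 0` and `(t² - q - q²)² = t² q` (`q ≠ 0`); `t = 0` gives `q + q² = 0`, and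
`t² = 3 q + q²` gives `4 q² = 3 q² + q³`, i.e. `q = 1`.
-/

set_option autoImplicit false

namespace Fermat.Agent.GS.FW

open Polynomial

/-- the reduction modulo Cayley-Hamilton, in an arbitrary algebra. -/
theorem Charpoly_reduce {R A : Type*} [CommRing R] [Ring A] [Algebra R A] (M : A) (t q a : R)
    (ha : a ^ 2 = 1) (hCH : M * M = t • M - q • 1) :
    (M * M - (q ^ 2) • 1) * ((a • M - q • 1) * (M - a • 1)) =
      (a * t - 1 - q) • ((t ^ 2 - q - q ^ 2) • M - (t * q) • 1) := by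
  have h1 : (a • M - q • 1) * (M - a • 1) = (a * t - 1 - q) • M := by
    have e : (a • M - q • 1) * (M - a • 1) =
        a • (M * M) - (a ^ 2) • M - q • M + (q * a) • 1 := by
      simp only [sub_mul, mul_sub, smul_mul_assoc, mul_smul_comm, one_mul, mul_one]
      module
    rw [e, hCH, ha]
    module
  have h2 : (M * M - (q ^ 2) • 1) * M = (t ^ 2 - q - q ^ 2) • M - (t * q) • 1 := by
    have e : (M * M - (q ^ 2) • 1) * M = t • (M * M) - q • M - (q ^ 2) • M := by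
      conv_lhs => rw [hCH]
      simp only [sub_mul, smul_mul_assoc, one_mul]
    rw [e, hCH]
    module
  rw [h1, mul_smul_comm, h2]

/-- the matrix version. -/
theorem Charpoly_matrix {𝒪 : Type*} [CommRing 𝒪] [IsDomain 𝒪] [CharZero 𝒪]
    (M : Matrix (Fin 2) (Fin 2) 𝒪) (q : ℕ) (hq : 1 < q) (a : 𝒪) (ha : a ^ 2 = 1)
    (hf : (M * M - ((q : 𝒪) ^ 2) • 1) * ((a • M - (q : 𝒪) • 1) * (M - a • 1)) = 0)
    (hdet : M.det = (q : 𝒪)) : M.trace = a * ((q : 𝒪) + 1) := by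
  have hCH : M * M = M.trace • M - (q : 𝒪) • 1 := by
    rw [← hdet]
    ext i j
    fin_cases i <;> fin_cases j <;>
      simp [Matrix.mul_apply, Fin.sum_univ_two, Matrix.trace_fin_two, Matrix.det_fin_two] <;> ring
  rw [Charpoly_reduce M M.trace (q : 𝒪) a ha hCH] at hf
  have hq0 : (q : 𝒪) ≠ 0 := Nat.cast_ne_zero.mpr (by omega)
  have hq1 : (q : 𝒪) + 1 ≠ 0 := Nat.cast_add_one_ne_zero q
  have hq2 : (q : 𝒪) ≠ 1 := by
    intro h
    have : q = 1 := by exact_mod_cast h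
    omega
  by_cases hc : a * M.trace - 1 - (q : 𝒪) = 0
  · linear_combination a * hc - M.trace * ha
  exfalso
  have hent : ∀ i j, ((M.trace ^ 2 - (q : 𝒪) - (q : 𝒪) ^ 2) • M -
      (M.trace * (q : 𝒪)) • (1 : Matrix (Fin 2) (Fin 2) 𝒪)) i j = 0 := by
    intro i j
    have h := congrFun (congrFun hf i) j
    rw [Matrix.smul_apply, smul_eq_mul] at h
    exact (mul_eq_zero.mp h).resolve_left hc
  have E1 := hent 0 0
  have E2 := hent 1 1
  have E3 := hent 0 1
  have E4 := hent 1 0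
  simp only [Matrix.sub_apply, Matrix.smul_apply, smul_eq_mul, Matrix.one_apply_eq, mul_one,
    Matrix.one_apply_ne (show (0 : Fin 2) ≠ 1 by decide),
    Matrix.one_apply_ne (show (1 : Fin 2) ≠ 0 by decide), mul_zero, sub_zero] at E1 E2 E3 E4
  rw [Matrix.det_fin_two] at hdet
  have ht : M.trace = M 0 0 + M 1 1 := Matrix.trace_fin_two M
  generalize M.trace = t at *
  generalize M 0 0 = x at *
  generalize M 1 1 = w at *
  generalize M 0 1 = y at *
  generalize M 1 0 = z at *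
  generalize (q : 𝒪) = Q at *
  have F1 : t * (t ^ 2 - 3 * Q - Q ^ 2) = 0 := by
    linear_combination E1 + E2 + (t ^ 2 - Q - Q ^ 2) * ht
  have F2 : (t ^ 2 - Q - Q ^ 2) ^ 2 * Q = t ^ 2 * Q ^ 2 := by
    linear_combination (-(t ^ 2 - Q - Q ^ 2) ^ 2) * hdet +
      ((t ^ 2 - Q - Q ^ 2) * w) * E1 + (t * Q) * E2 - ((t ^ 2 - Q - Q ^ 2) * z) * E3
  rcases mul_eq_zero.mp F1 with h0 | h0
  · rw [h0] at F2
    have h3 : (Q * (Q + 1)) ^ 2 * Q = 0 := by linear_combination F2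
    have := mul_ne_zero (pow_ne_zero 2 (mul_ne_zero hq0 hq1)) hq0
    exact this h3
  · have h3 : Q ^ 3 * (Q - 1) = 0 := by
      linear_combination (-1 : 𝒪) * F2 + (3 * Q ^ 2 + Q * (t ^ 2 - 3 * Q - Q ^ 2)) * h0
    exact mul_ne_zero (pow_ne_zero 3 hq0) (sub_ne_zero.mpr hq2) h3

theorem trace_of_cubic {𝒪 V : Type*} [CommRing 𝒪] [IsDomain 𝒪] [CharZero 𝒪] [AddCommGroup V]
    [Module 𝒪 V] [Module.Free 𝒪 V] [Module.Finite 𝒪 V] (hV : Module.finrank 𝒪 V = 2)
    (f : Module.End 𝒪 V) (q : ℕ) (hq : 1 < q) (a : 𝒪) (ha : a ^ 2 = 1)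
    (hf : (f * f - ((q : 𝒪) ^ 2) • 1) * ((a • f - (q : 𝒪) • 1) * (f - a • 1)) = 0)
    (hdet : LinearMap.det f = (q : 𝒪)) :
    LinearMap.trace 𝒪 V f = a * ((q : 𝒪) + 1) := by
  let b := Module.finBasisOfFinrankEq 𝒪 V hV
  rw [LinearMap.trace_eq_matrix_trace 𝒪 b f]
  apply Charpoly_matrix _ q hq a ha
  · have h := congrArg (LinearMap.toMatrixAlgEquiv b) hf
    simp only [map_mul, map_sub, map_smul, map_one, map_zero] at h
    exact h
  · rw [LinearMap.det_toMatrix b f, hdet]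

theorem charpoly_of_cubic {𝒪 V : Type*} [CommRing 𝒪] [IsDomain 𝒪] [CharZero 𝒪] [AddCommGroup V]
    [Module 𝒪 V] [Module.Free 𝒪 V] [Module.Finite 𝒪 V] (hV : Module.finrank 𝒪 V = 2)
    (f : Module.End 𝒪 V) (q : ℕ) (hq : 1 < q) (a : 𝒪) (ha : a ^ 2 = 1)
    (hf : (f * f - ((q : 𝒪) ^ 2) • 1) * ((a • f - (q : 𝒪) • 1) * (f - a • 1)) = 0)
    (hdet : LinearMap.det f = (q : 𝒪)) :
    LinearMap.charpoly f = X ^ 2 - C ((q : 𝒪) + 1) * X + C ((q : 𝒪)) ∨
      LinearMap.charpoly f = X ^ 2 + C ((q : 𝒪) + 1) * X + C ((q : 𝒪)) := by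
  have htr := trace_of_cubic hV f q hq a ha hf hdet
  let b := Module.finBasisOfFinrankEq 𝒪 V hV
  have hcp : LinearMap.charpoly f =
      X ^ 2 - C (LinearMap.trace 𝒪 V f) * X + C (LinearMap.det f) := by
    rw [← LinearMap.charpoly_toMatrix f b, Matrix.charpoly_fin_two,
      LinearMap.trace_eq_matrix_trace 𝒪 b f, LinearMap.det_toMatrix b f]
  rw [hcp, htr, hdet]
  have h : (a - 1) * (a + 1) = 0 := by linear_combination ha
  rcases mul_eq_zero.mp h with h | h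
  · left
    rw [sub_eq_zero.mp h, one_mul]
  · right
    rw [eq_neg_of_add_eq_zero_left h]
    simp only [neg_mul, one_mul, map_neg, sub_neg_eq_add]

end Fermat.Agent.GS.FW
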