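import Fermat.Agent.GS.FW.Near

/-!
# GS-FW: the two basic congruences

(C1) `σ x / U_q x` is `NearOne` for every `x ≠ 0` of the function field (`σ` Frobenius at `A ∣ q`).
(C2) `σ (f(t^q)) / f^q` is `NearOne`.
Formal from GR-F (`exists_normalized`, `incl`, `red`, `actA`, `normT_one_char`,
`pow_char_eq_qExpand`, `red_actA_of_isFrobeniusAt`); compare `GR.kummerEquiv_of_cong` and
`GR.kummerEquiv_heckeMulT_of_isFrobeniusAt`.
-/

set_option autoImplicit false

noncomputable section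

namespace Fermat.Agent.GS.FW

open Fermat.Agent.GR Fermat.Agent.GR.H ModularCurve IsLocalRing

variable {N N' n : ℕ} {A : ValuationSubring Qbar} {y y' : LaurentSeries Qbar}

theorem Cong_FF_mono {M M' : ℕ} (h : M ∣ M') : FF Qbar M ≤ FF Qbar M' := by
  rw [FF, modularFunctionFieldFullC, IntermediateField.adjoin_le_iff]
  rintro x ⟨d, hne, hdvd, rfl⟩
  have := hne
  exact jqModCd_mem_full Qbar M' (hdvd.trans h)

theorem Cong_incl_ne_zero (x : LaurentSeries A) (hx : red A x ≠ 0) : incl A x ≠ 0 := by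
  intro h0
  apply hx
  rw [show x = 0 from incl_injective A (by rw [h0, map_zero]), map_zero]

theorem Cong_frob_injective {q : ℕ} [Fact q.Prime] [CharP (ResidueField A) q] :
    Function.Injective (coeffMap (frobenius (ResidueField A) q)) := by
  intro x y hxy
  ext k
  have := congrArg (fun s => s.coeff k) hxy
  exact (frobenius (ResidueField A) q).injective this

/-! ### the two congruences -/

/-- (C1) `U_q x ≡ σ x` at `v_∞`. -/
theorem nearOne_opA [NeZero N] {q : ℕ} [Fact q.Prime] (hA : A.LiesOverPrime q) (hqN : q ∣ N)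
    (ζ : Qbarˣ) (hζ : IsPrimitiveRoot ζ q) {σ : GQ} (hσ : A.IsFrobeniusAt σ q)
    {x : LaurentSeries Qbar} (hx : x ∈ FF Qbar N) (hx0 : x ≠ 0) :
    NearOne A N (opA q ζ σ x) := by
  have := charP_residueField A hA
  obtain ⟨z, hz, hz1⟩ := exists_unit_of_pow_eq_one A hA ζ hζ.pow_eq_one
  set τ : A.decompositionSubgroup ℚ := ⟨σ, hσ.mem_decompositionSubgroup⟩ with hτ
  obtain ⟨κ, F, G, hκ, hFF, hGF, hF, hG, hx_eq⟩ := exists_normalized A N hx hx0
  obtain ⟨f, rfl, hf⟩ := (isPrim_iff A).mp hF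
  obtain ⟨g, rfl, hg⟩ := (isPrim_iff A).mp hG
  have hfrobinj := Cong_frob_injective (A := A) (q := q)
  -- the operators on integral series
  have hU : ∀ h : LaurentSeries A, incl A (normT q z h) = normT q ζ (incl A h) := by
    intro h
    rw [incl, coeffMap_normT, hz]
  have hS : ∀ h : LaurentSeries A, incl A (coeffMap (actA A τ) h) = gal σ (incl A h) := by
    intro h
    rw [incl_coeffMap_actA]
  have hrU : ∀ h : LaurentSeries A,
      red A (normT q z h) = coeffMap (frobenius (ResidueField A) q) (red A h) := by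
    intro h
    rw [red, coeffMap_normT, hz1, normT_one_char]
  have hrS : ∀ h : LaurentSeries A, red A (coeffMap (actA A τ) h) =
      coeffMap (frobenius (ResidueField A) q) (red A h) := by
    intro h
    exact red_actA_of_isFrobeniusAt A σ hσ h
  have hfr : ∀ h : LaurentSeries A, red A h ≠ 0 →
      coeffMap (frobenius (ResidueField A) q) (red A h) ≠ 0 := by
    intro h hh h0
    exact hh (hfrobinj (by rw [h0, map_zero]))
  have hUf0 : incl A (normT q z f) ≠ 0 := Cong_incl_ne_zero _ (by rw [hrU]; exact hfr f hf)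
  have hUg0 : incl A (normT q z g) ≠ 0 := Cong_incl_ne_zero _ (by rw [hrU]; exact hfr g hg)
  have hSf0 : incl A (coeffMap (actA A τ) f) ≠ 0 :=
    Cong_incl_ne_zero _ (by rw [hrS]; exact hfr f hf)
  have hSg0 : incl A (coeffMap (actA A τ) g) ≠ 0 :=
    Cong_incl_ne_zero _ (by rw [hrS]; exact hfr g hg)
  have hg0 : incl A g ≠ 0 := Cong_incl_ne_zero _ hg
  -- `U x`
  have hUx : normT q ζ x = HahnSeries.C (κ ^ q) * (incl A (normT q z f) / incl A (normT q z g)) := by
    have h1 : x * incl A g = HahnSeries.C κ * incl A f := by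
      rw [hx_eq]
      field_simp
    have h2 := congrArg (normT q ζ) h1
    rw [normT_mul q ζ hζ, normT_mul q ζ hζ, normT_C, ← hU, ← hU] at h2
    field_simp
    exact h2
  have hSx : gal σ x = HahnSeries.C (σ κ) *
      (incl A (coeffMap (actA A τ) f) / incl A (coeffMap (actA A τ) g)) := by
    rw [hx_eq, map_mul, map_div₀, gal_C, hS, hS]
  have hCκ : (HahnSeries.C (κ ^ q) : LaurentSeries Qbar) ≠ 0 := by
    rw [Ne, map_eq_zero]
    exact pow_ne_zero _ hκ
  refine ⟨σ κ / κ ^ q, incl A (coeffMap (actA A τ) f * normT q z g),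
    incl A (normT q z f * coeffMap (actA A τ) g),
    div_ne_zero ((map_ne_zero _).mpr hκ) (pow_ne_zero _ hκ), ?_, ?_, ?_, ?_, ?_, ?_⟩
  · rw [map_mul, hS, hU]
    exact mul_mem (coeffMap_mem_FF _ hFF) (B.normT_mem_FF_Qbar q hqN ζ hζ hGF)
  · rw [map_mul, hS, hU]
    exact mul_mem (B.normT_mem_FF_Qbar q hqN ζ hζ hFF) (coeffMap_mem_FF _ hGF)
  · rw [isPrim_incl_iff, map_mul, hrS, hrU]
    exact mul_ne_zero (hfr f hf) (hfr g hg)
  · exact (isInt_iff A).mpr ⟨_, rfl⟩
  · rw [cong_incl_iff, map_mul, map_mul, hrS, hrU, hrS, hrU]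
  · rw [opA, hUx, hSx, map_mul, map_mul, map_div₀]
    field_simp

/-- (C2) `σ (f(t^q)) ≡ f^q` at `v_∞`. -/
theorem nearOne_gal_qExpand_div_pow {q : ℕ} [Fact q.Prime] (hA : A.LiesOverPrime q)
    {σ : GQ} (hσ : A.IsFrobeniusAt σ q) {f : LaurentSeries Qbar} (hf : f ∈ FF Qbar N)
    (hf0 : f ≠ 0) : NearOne A (N * q) (gal σ (qExpand Qbar q f) / f ^ q) := by
  have := charP_residueField A hA
  set τ : A.decompositionSubgroup ℚ := ⟨σ, hσ.mem_decompositionSubgroup⟩ with hτ
  obtain ⟨κ, F, G, hκ, hFF, hGF, hF, hG, hf_eq⟩ := exists_normalized A N hf hf0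
  obtain ⟨a, rfl, ha⟩ := (isPrim_iff A).mp hF
  obtain ⟨b, rfl, hb⟩ := (isPrim_iff A).mp hG
  have hV : ∀ h : LaurentSeries A, incl A (coeffMap (actA A τ) (qExpand A q h)) =
      gal σ (qExpand Qbar q (incl A h)) := by
    intro h
    rw [incl_coeffMap_actA, incl, coeffMap_qExpand]
  have hrV : ∀ h : LaurentSeries A, red A (coeffMap (actA A τ) (qExpand A q h)) = red A h ^ q := by
    intro h
    rw [red_actA_of_isFrobeniusAt A σ hσ, pow_char_eq_qExpand, red, coeffMap_qExpand,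
      coeffMap_qExpand]
  have hVmem : ∀ h : LaurentSeries Qbar, h ∈ FF Qbar N →
      gal σ (qExpand Qbar q h) ∈ FF Qbar (N * q) := by
    intro h hh
    apply coeffMap_mem_FF
    apply full_degeneracyC_map_le Qbar N q
    exact ⟨h, hh, rfl⟩
  have hmono := Cong_FF_mono (Dvd.intro q rfl : N ∣ N * q)
  have hVa0 : incl A (coeffMap (actA A τ) (qExpand A q a)) ≠ 0 :=
    Cong_incl_ne_zero _ (by rw [hrV]; exact pow_ne_zero _ ha)
  have hVb0 : incl A (coeffMap (actA A τ) (qExpand A q b)) ≠ 0 :=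
    Cong_incl_ne_zero _ (by rw [hrV]; exact pow_ne_zero _ hb)
  have ha0 : incl A a ≠ 0 := Cong_incl_ne_zero _ ha
  have hb0 : incl A b ≠ 0 := Cong_incl_ne_zero _ hb
  have hCκ : (HahnSeries.C κ : LaurentSeries Qbar) ≠ 0 := by
    simpa using hκ
  refine ⟨σ κ / κ ^ q, incl A (coeffMap (actA A τ) (qExpand A q a) * b ^ q),
    incl A (a ^ q * coeffMap (actA A τ) (qExpand A q b)),
    div_ne_zero ((map_ne_zero _).mpr hκ) (pow_ne_zero _ hκ), ?_, ?_, ?_, ?_, ?_, ?_⟩
  · rw [map_mul, hV, map_pow]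
    exact mul_mem (hVmem _ hFF) (pow_mem (hmono hGF) _)
  · rw [map_mul, hV, map_pow]
    exact mul_mem (pow_mem (hmono hFF) _) (hVmem _ hGF)
  · rw [isPrim_incl_iff, map_mul, hrV, map_pow]
    exact mul_ne_zero (pow_ne_zero _ ha) (pow_ne_zero _ hb)
  · exact (isInt_iff A).mpr ⟨_, rfl⟩
  · rw [cong_incl_iff, map_mul, map_mul, hrV, hrV, map_pow, map_pow]
  · rw [hf_eq, map_mul, map_div₀, map_mul, map_div₀, qExpand_C, gal_C, ← hV, ← hV, map_mul,
      map_mul, map_pow, map_pow, map_div₀, map_pow, mul_pow, div_pow]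
    field_simp

end Fermat.Agent.GS.FW
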