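import Fermat.Agent.GS.FW.Defs
import Fermat.Agent.GR.B.Export
import Fermat.Agent.GR.D.LevelChange

/-!
# GS-FW: level change `N r → N` for (U) and (F)
-/

set_option autoImplicit false

noncomputable section

namespace Fermat.Agent.GS.FW

open Fermat.Agent.GR Fermat.Agent.GR.H ModularCurve

variable {N n q : ℕ} {A : ValuationSubring Qbar}

/-! ### level change (`GR.D.LC.kummerEquiv_descend`, `GR.D.LC.isKummer_mono`) -/

theorem Descend_gal_mem (σ : GQ) {u : LaurentSeries Qbar} (hu : u ∈ FF Qbar N) :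
    gal σ u ∈ FF Qbar N :=
  GR.C.coeffMap_mem_FF N _ hu

theorem UnipAt.descend [NeZero N] {r : ℕ} (hr : r.Prime) (hrN : ¬ r ∣ N)
    (h : UnipAt (N * r) n A) : UnipAt N n A := by
  have : NeZero (N * r) := ⟨mul_ne_zero (NeZero.ne N) hr.ne_zero⟩
  intro σ hσ u hu
  have h1 := h σ hσ u (GR.D.LC.isKummer_mono (Dvd.intro r rfl) hu)
  obtain ⟨hu0, hmem, -⟩ := hu
  refine GR.D.LC.kummerEquiv_descend N r n hr hrN ?_ ?_ ?_ h1
  · exact pow_mem (Descend_gal_mem σ hmem) 2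
  · exact mul_mem (Descend_gal_mem σ (Descend_gal_mem σ hmem)) hmem
  · exact pow_ne_zero 2 ((map_ne_zero (gal σ)).mpr hu0)

theorem FrobBadAt.descend [NeZero N] [NeZero q] (hqN : q ∣ N) {r : ℕ} (hr : r.Prime)
    (hrN : ¬ r ∣ N) (ζ : Qbarˣ) (hζ : IsPrimitiveRoot ζ q) (h : FrobBadAt (N * r) n q ζ A) :
    FrobBadAt N n q ζ A := by
  have : NeZero (N * r) := ⟨mul_ne_zero (NeZero.ne N) hr.ne_zero⟩
  intro σ hσ u hu
  have h1 := h σ hσ u (GR.D.LC.isKummer_mono (Dvd.intro r rfl) hu)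
  obtain ⟨hu0, hmem, -⟩ := hu
  refine GR.D.LC.kummerEquiv_descend N r n hr hrN (one_mem _) ?_ one_ne_zero h1
  have hA : opA q ζ σ u ∈ FF Qbar N :=
    div_mem (Descend_gal_mem σ hmem) (GR.B.normT_mem_FF_Qbar q hqN ζ hζ hmem)
  have hB : opB q ζ σ (opA q ζ σ u) ∈ FF Qbar N :=
    div_mem (Descend_gal_mem σ (GR.B.normT_mem_FF_Qbar q hqN ζ hζ hA)) (pow_mem hA q)
  exact div_mem (Descend_gal_mem σ (Descend_gal_mem σ hB)) (pow_mem hB (q ^ 2))

end Fermat.Agent.GS.FW
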