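import Fermat.Agent.GR.H.Det
import Fermat.Agent.GR.H.Cyc

/-!
# GS-FW (W3): `det ρ` is the cyclotomic character on ALL of `G_ℚ`

Generalisation of `GR.H.det_frobenius_of_density` (same proof): for `n ≥ n₀`, either `ρ g` is not
scalar mod `𝔪ⁿ` (`Det_claimA` for `g`), or it is, and then `ρ (g c)` is not (`Det_claimA` for `g c` and
for `c`).
-/

set_option autoImplicit false

namespace Fermat.Agent.GS.FW

open Fermat.Agent.GR.H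

theorem det_eq_of_rootOfUnity (dens : FrobeniusDensityWeak) (p : ℕ) [Fact p.Prime] (𝒪 : Type)
    [CommRing 𝒪] [IsDomain 𝒪] [IsLocalRing 𝒪] [IsNoetherianRing 𝒪] [CharZero 𝒪]
    (hp : (p : 𝒪) ∈ IsLocalRing.maximalIdeal 𝒪) (ρ : GaloisRepAdic 𝒪) (S : Finset ℕ)
    (hpS : p ∈ S) (a : ℕ → 𝒪)
    (hES : ∀ ℓ : ℕ, ℓ.Prime → ℓ ∉ S → ∀ A : ValuationSubring (AlgebraicClosure ℚ),
      A.LiesOverPrime ℓ → ∀ σ : GQ, A.IsFrobeniusAt σ ℓ →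
        ρ.ρ σ * ρ.ρ σ - a ℓ • ρ.ρ σ + (ℓ : 𝒪) • 1 = 0)
    (hc : ∃ (c : GQ) (x y : ρ.V), x ≠ 0 ∧ y ≠ 0 ∧ ρ.ρ c x = x ∧ ρ.ρ c y = -y)
    (g : GQ) (e : ℕ) (hg : ∀ (n : ℕ) (ζ : AlgebraicClosure ℚ), ζ ^ (p ^ n) = 1 → g ζ = ζ ^ e) :
    LinearMap.det (ρ.ρ g) = (e : 𝒪) := by
  let b : Module.Basis (Fin 2) 𝒪 ρ.V := Module.finBasisOfFinrankEq 𝒪 ρ.V ρ.finrank_eq
  obtain ⟨c, x, y, hx, hy, hcx, hcy⟩ := hc
  obtain ⟨n0, hn0⟩ := Det_exists_not_scalar b (ρ.ρ c) x y hx hy hcx hcy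
  have key : ∀ n, n0 ≤ n →
      LinearMap.det (ρ.ρ g) - (e : 𝒪) ∈ IsLocalRing.maximalIdeal 𝒪 ^ n := by
    intro n hn
    obtain ⟨ζ, hζ⟩ : ∃ ζ : AlgebraicClosure ℚ, IsPrimitiveRoot ζ (p ^ n) :=
      HasEnoughRootsOfUnity.exists_primitiveRoot _ _
    have hcn := hn0 n hn
    set I := IsLocalRing.maximalIdeal 𝒪 ^ n with hI
    set R := Det_red b I with hR
    have hpn0 : 0 < p ^ n := pow_pos (Fact.out : p.Prime).pos n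
    have hpn : ((p : 𝒪 ⧸ I)) ^ n = 0 := by
      have : Ideal.Quotient.mk I ((p : 𝒪) ^ n) = 0 :=
        Ideal.Quotient.eq_zero_iff_mem.mpr (Ideal.pow_mem_pow hp n)
      simpa using this
    have hcast : ∀ e1 e2 : ℕ, ζ ^ e1 = ζ ^ e2 → (e1 : 𝒪 ⧸ I) = (e2 : 𝒪 ⧸ I) := by
      intro e1 e2 h5
      have h6 : e1 ≡ e2 [MOD p ^ n] := by
        have := (hζ.isOfFinOrder hpn0.ne').pow_eq_pow_iff_modEq.mp h5
        rwa [← hζ.eq_orderOf] at this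
      obtain ⟨k, hk⟩ := (Nat.modEq_iff_dvd.mp h6)
      have h := congrArg (Int.cast : ℤ → 𝒪 ⧸ I) hk
      push_cast at h
      rw [hpn, zero_mul] at h
      exact (sub_eq_zero.mp h).symm
    have hgζ : g ζ = ζ ^ e := hg n ζ hζ.pow_eq_one
    by_cases hs : ∃ t : 𝒪 ⧸ I, R (ρ.ρ g) = t • 1
    swap
    · obtain ⟨e1, he1, hd1⟩ := Det_claimA dens p 𝒪 ρ S hpS a hES b n ζ hζ.pow_eq_one g hs
      rw [← Ideal.Quotient.eq_zero_iff_mem, map_sub, map_natCast, hd1,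
        hcast e1 e (by rw [← he1, hgζ]), sub_self]
    obtain ⟨s, hs⟩ := hs
    have hgc : ¬ ∃ t : 𝒪 ⧸ I, R (ρ.ρ (g * c)) = t • 1 := by
      rintro ⟨t, ht⟩
      apply hcn
      have h2 : s • R (ρ.ρ g⁻¹) = 1 := by
        have h : R (ρ.ρ g) * R (ρ.ρ g⁻¹) = 1 := by
          rw [← map_mul, ← map_mul, mul_inv_cancel, map_one, map_one]
        rwa [hs, smul_mul_assoc, one_mul] at h
      have h3 : s • R (ρ.ρ c) = t • 1 := by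
        rw [← ht, map_mul, map_mul, hs, smul_mul_assoc, one_mul]
      have h4 : s * R (ρ.ρ g⁻¹) 0 0 = 1 := by
        have := congrFun (congrFun h2 0) 0
        simpa using this
      refine ⟨R (ρ.ρ g⁻¹) 0 0 * t, ?_⟩
      rw [mul_smul, ← h3, smul_smul, mul_comm _ s, h4, one_smul]
    obtain ⟨e1, he1, hd1⟩ :=
      Det_claimA dens p 𝒪 ρ S hpS a hES b n ζ hζ.pow_eq_one (g * c) hgc
    obtain ⟨e2, he2, hd2⟩ := Det_claimA dens p 𝒪 ρ S hpS a hES b n ζ hζ.pow_eq_one c hcn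
    have h5 : ζ ^ e1 = ζ ^ (e2 * e) := by
      rw [← he1, AlgEquiv.mul_apply, he2, map_pow, hgζ, ← pow_mul, mul_comm]
    have h7 : (e1 : 𝒪 ⧸ I) = (e2 : 𝒪 ⧸ I) * (e : 𝒪 ⧸ I) := by
      rw [hcast _ _ h5, Nat.cast_mul]
    have h8 : Ideal.Quotient.mk I (LinearMap.det (ρ.ρ g)) *
        Ideal.Quotient.mk I (LinearMap.det (ρ.ρ c)) =
        Ideal.Quotient.mk I (LinearMap.det (ρ.ρ c)) * (e : 𝒪 ⧸ I) := by
      rw [← map_mul, ← map_mul, ← map_mul, hd1, h7, hd2]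
    have h9 : Ideal.Quotient.mk I (LinearMap.det (ρ.ρ c)) *
        Ideal.Quotient.mk I (LinearMap.det (ρ.ρ c⁻¹)) = 1 := by
      rw [← map_mul, ← map_mul, ← map_mul, mul_inv_cancel, map_one, map_one, map_one]
    rw [← Ideal.Quotient.eq_zero_iff_mem, map_sub, map_natCast]
    linear_combination Ideal.Quotient.mk I (LinearMap.det (ρ.ρ c⁻¹)) * h8 -
      (Ideal.Quotient.mk I (LinearMap.det (ρ.ρ g)) - (e : 𝒪 ⧸ I)) * h9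
  by_contra hne
  obtain ⟨n1, hn1⟩ := Det_exists_notMem_pow (sub_ne_zero.mpr hne)
  exact hn1 (max n0 n1) (le_max_right _ _) (key _ (le_max_left _ _))

/-- `det ρ (σ) = q` for a Frobenius element at ANY prime `q ≠ p`. -/
theorem det_frobenius_any (dens : FrobeniusDensityWeak) (p : ℕ) [Fact p.Prime] (𝒪 : Type)
    [CommRing 𝒪] [IsDomain 𝒪] [IsLocalRing 𝒪] [IsNoetherianRing 𝒪] [CharZero 𝒪]
    (hp : (p : 𝒪) ∈ IsLocalRing.maximalIdeal 𝒪) (ρ : GaloisRepAdic 𝒪) (S : Finset ℕ)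
    (hpS : p ∈ S) (a : ℕ → 𝒪)
    (hES : ∀ ℓ : ℕ, ℓ.Prime → ℓ ∉ S → ∀ A : ValuationSubring (AlgebraicClosure ℚ),
      A.LiesOverPrime ℓ → ∀ σ : GQ, A.IsFrobeniusAt σ ℓ →
        ρ.ρ σ * ρ.ρ σ - a ℓ • ρ.ρ σ + (ℓ : 𝒪) • 1 = 0)
    (hc : ∃ (c : GQ) (x y : ρ.V), x ≠ 0 ∧ y ≠ 0 ∧ ρ.ρ c x = x ∧ ρ.ρ c y = -y)
    (q : ℕ) (hq : q.Prime) (hqp : q ≠ p) (A : ValuationSubring (AlgebraicClosure ℚ))
    (hA : A.LiesOverPrime q) (σ : GQ) (hσ : A.IsFrobeniusAt σ q) :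
    LinearMap.det (ρ.ρ σ) = (q : 𝒪) := by
  refine det_eq_of_rootOfUnity dens p 𝒪 hp ρ S hpS a hES hc σ q fun n ζ hζ => ?_
  have hqp' : ¬ q ∣ p ^ n := by
    intro hdvd
    exact hqp ((Nat.prime_dvd_prime_iff_eq hq (Fact.out : p.Prime)).mp (hq.dvd_of_dvd_pow hdvd))
  exact frobenius_rootOfUnity A q hq hA σ hσ (p ^ n) hqp' ζ hζ

end Fermat.Agent.GS.FW
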