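import Fermat.Agent.GR.H.ExtChar

/-!
# GS-FW (W3): extending `iota ∘ χ` to the full Hecke algebra THROUGH a given complex eigencharacter

Variant of `GR.H.exists_extension_char`.  `μ` = eigencharacter of the newform `g` on the full Hecke
algebra, `χ = μ ∘ heckeIncl`.  Apply `GR.H.ExtChar_exists_lift` to the inclusion
`χ.range → μ.range` (integral: `μ.range` is integral over `ℤ`, `S22`) and to
`algebraMap ∘ iota : χ.range → K̄'`; compose with `μ.rangeRestrict`; then proceed as in
`exists_extension_char`.  The new information: `lam` kills `ker μ`.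
-/

set_option autoImplicit false
set_option linter.style.haveILetI false

namespace Fermat.Agent.GS.FW

open Fermat.Agent.GR.H

theorem exists_extension_char_through (N : ℕ) [NeZero N] (S : Set ℕ)
    (𝒪' : Type) [CommRing 𝒪'] [IsDomain 𝒪'] [IsDiscreteValuationRing 𝒪']
    [IsAdicComplete (IsLocalRing.maximalIdeal 𝒪') 𝒪'] [Finite (IsLocalRing.ResidueField 𝒪')]
    [CharZero 𝒪'] (μ : HeckeFull N →+* ℂ) (χ : ↥(CuspForm.heckeAlgebra N 2 S) →+* ℂ)
    (hχ : ∀ t, χ t = μ (heckeIncl N S t)) (iota : χ.range →+* 𝒪') :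
    ∃ (𝒪'' : Type) (_ : CommRing 𝒪'') (_ : IsDomain 𝒪'') (_ : IsDiscreteValuationRing 𝒪'')
      (_ : IsAdicComplete (IsLocalRing.maximalIdeal 𝒪'') 𝒪'')
      (_ : Finite (IsLocalRing.ResidueField 𝒪'')) (_ : CharZero 𝒪'')
      (_ : Algebra 𝒪' 𝒪'') (_ : Module.Finite 𝒪' 𝒪'') (_ : IsLocalHom (algebraMap 𝒪' 𝒪'')),
      Function.Injective (algebraMap 𝒪' 𝒪'') ∧
      ∃ lam : HeckeFull N →+* 𝒪'',
        (∀ t, lam (heckeIncl N S t) = algebraMap 𝒪' 𝒪'' (iota (χ.rangeRestrict t))) ∧
        ∀ t, μ t = 0 → lam t = 0 := by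
  classical
  let K' := FractionRing 𝒪'
  let Kbar := AlgebraicClosure K'
  haveI hfin : Module.Finite ℤ (HeckeFull N) := Fermat.Agent.S22.result N 2 ∅
  have hintZ : ∀ t : HeckeFull N, IsIntegral ℤ t := fun t => Algebra.IsIntegral.isIntegral t
  have hle : χ.range ≤ μ.range := by
    rintro _ ⟨t, rfl⟩
    exact ⟨heckeIncl N S t, (hχ t).symm⟩
  let i : χ.range →+* μ.range := Subring.inclusion hle
  have hi : i.IsIntegral := by
    rintro ⟨_, t, rfl⟩
    have h1 : IsIntegral ℤ (μ.rangeRestrict t) :=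
      (hintZ t).map (μ.rangeRestrict : HeckeFull N →+* μ.range).toIntAlgHom
    obtain ⟨q, hq, hq0⟩ := h1
    refine ⟨q.map (Int.castRingHom _), hq.map _, ?_⟩
    rw [Polynomial.eval₂_map]
    have : i.comp (Int.castRingHom _) = algebraMap ℤ μ.range :=
      RingHom.ext_int _ _
    rw [this]
    exact hq0
  have hinj : Function.Injective i := Subring.inclusion_injective hle
  obtain ⟨ψ, hψ⟩ := ExtChar_exists_lift (M := Kbar) i hi hinj
    ((algebraMap 𝒪' Kbar).comp iota)
  let lam0 : HeckeFull N →+* Kbar := ψ.comp μ.rangeRestrict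
  have hlam0 : ∀ t, lam0 (heckeIncl N S t) = algebraMap 𝒪' Kbar (iota (χ.rangeRestrict t)) := by
    intro t
    have h1 : μ.rangeRestrict (heckeIncl N S t) = i (χ.rangeRestrict t) := by
      apply Subtype.ext
      exact (hχ t).symm
    change ψ (μ.rangeRestrict (heckeIncl N S t)) = _
    rw [h1, hψ]
    rfl
  have hlam0z : ∀ t, μ t = 0 → lam0 t = 0 := by
    intro t ht
    have h1 : μ.rangeRestrict t = 0 := Subtype.ext ht
    change ψ (μ.rangeRestrict t) = 0
    rw [h1, map_zero]
  obtain ⟨s, hs⟩ := hfin.fg_top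
  let K'' : IntermediateField K' Kbar := IntermediateField.adjoin K' (lam0 '' (s : Set (HeckeFull N)))
  haveI : FiniteDimensional K' K'' := by
    haveI : Finite (lam0 '' (s : Set (HeckeFull N))) := (s.finite_toSet.image _).to_subtype
    exact IntermediateField.finiteDimensional_adjoin
      (fun x _ => Algebra.IsIntegral.isIntegral x)
  have hmem : ∀ t : HeckeFull N, lam0 t ∈ K'' := by
    intro t
    have ht : t ∈ Submodule.span ℤ (s : Set (HeckeFull N)) := by rw [hs]; trivial
    induction ht using Submodule.span_induction with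
    | mem x hx => exact IntermediateField.subset_adjoin _ _ ⟨x, hx, rfl⟩
    | zero => rw [map_zero]; exact K''.zero_mem
    | add x y _ _ hx hy => rw [map_add]; exact K''.add_mem hx hy
    | smul a x _ hx =>
      rw [zsmul_eq_mul, map_mul, map_intCast]
      exact K''.mul_mem (K''.intCast_mem a) hx
  obtain ⟨𝒪'', i1, i2, i3, i4, i5, i6, i7, i8, i9, hinj'', j, hj, hja, hjint⟩ :=
    exists_dvr_extension 𝒪' ↥K''
  refine ⟨𝒪'', i1, i2, i3, i4, i5, i6, i7, i8, i9, hinj'', ?_⟩
  let lam1 : HeckeFull N →+* ↥K'' := lam0.codRestrict K''.toSubfield.toSubring hmem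
  have hlam1 : ∀ t, ((lam1 t : ↥K'') : Kbar) = lam0 t := fun t => rfl
  have hrange : ∀ t, lam1 t ∈ j.range := by
    intro t
    obtain ⟨y, hy⟩ := hjint (lam1 t) (by
      have h1 : IsIntegral ℤ (lam1 t) := (hintZ t).map (lam1 : HeckeFull N →+* ↥K'').toIntAlgHom
      exact h1.tower_top)
    exact ⟨y, hy⟩
  let e : 𝒪'' ≃+* j.range := RingEquiv.ofBijective j.rangeRestrict
    ⟨fun a b hab => hj (congrArg Subtype.val hab), j.rangeRestrict_surjective⟩
  have hje : ∀ t, j (e.symm (lam1.codRestrict j.range hrange t)) = lam1 t := by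
    intro t
    have := e.apply_symm_apply (lam1.codRestrict j.range hrange t)
    exact congrArg Subtype.val this
  refine ⟨(e.symm : j.range →+* 𝒪'').comp (lam1.codRestrict j.range hrange), fun t => ?_,
    fun t ht => ?_⟩
  · apply hj
    rw [RingHom.comp_apply]
    refine (hje _).trans ?_
    rw [hja]
    apply Subtype.ext
    rw [hlam1, hlam0]
    rfl
  · apply hj
    rw [RingHom.comp_apply, map_zero]
    refine (hje _).trans ?_
    apply Subtype.ext
    rw [hlam1, hlam0z t ht]
    rfl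

end Fermat.Agent.GS.FW
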