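import Fermat.Agent.GS.FW.Defs
import Fermat.Agent.S34.Of
import Fermat.Agent.S31.Of
import Fermat.Agent.GR.H.Cyc
import Fermat.Prelude.Def_GaloisRep_LocalConditions

/-!
# GS-FW (W3): S34 from a `TateData` with unipotent inertia at `q`

PROOF.  Fix `σ` in the inertia group at `q ≠ p` and `n`.  Take `k = n + c₀` (`c₀` = Artin-Rees
constant, as in `S31.hasFaithfulHeckeGaloisModules_of_tateData`), `M = Λ / p^k` as Hecke-Galois module,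
`ζ` a primitive `p^k`-th root of unity.  `S31.exists_trace_det_data` gives `t`, `d` with
`σ² - t σ + d = 0` on `M.W`, `tr ρ σ ≡ π t`, `det ρ σ ≡ d` mod `𝔪ⁿ`, `σ ζ = ζ^d`.  Inertia fixes `ζ`, so
`d ≡ 1` mod `p^k`.  Subtracting `σ² - 2 σ + 1 = 0` gives `(t - 2) σ = 0`, so `(t - 2) M.W = 0`, so
`π (t - 2) ∈ 𝔪ⁿ` (`S31.faithful_mod`).  Hence `tr ρ σ = 2`, `det ρ σ = 1` (Krull).
-/

set_option autoImplicit false

namespace Fermat.Agent.GS.FW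

open CuspForm Fermat.Agent.GR.H Fermat.Agent.S31

variable {p : ℕ} {N : ℕ} [NeZero N] {S : Finset ℕ}
  {𝒪 : Type} [CommRing 𝒪] [IsDomain 𝒪] [IsDiscreteValuationRing 𝒪]
  [IsAdicComplete (IsLocalRing.maximalIdeal 𝒪) 𝒪]
  {θ : CuspForm.heckeAlgebra N 2 (↑S : Set ℕ) →+* IsLocalRing.ResidueField 𝒪}
  {T : Type} [CommRing T] [IsLocalRing T] [IsNoetherianRing T]
  [IsAdicComplete (IsLocalRing.maximalIdeal T) T] [Algebra 𝒪 T] [IsLocalHom (algebraMap 𝒪 T)]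
  [Module.Finite 𝒪 T] [Module.Free 𝒪 T]

/-- level `n` statement. -/
theorem trace_det_inertia_mem (hp : p.Prime) (D : TateData N p)
    (hinj : Function.Injective D.hecke)
    (hp𝒪 : (p : 𝒪) ∈ IsLocalRing.maximalIdeal 𝒪) (hpS : p ∈ S)
    (hNS : ∀ q : ℕ, q.Prime → q ∣ N → q ∈ S)
    (H : CuspForm.HeckeGaloisRepDatum N (↑S : Set ℕ) 𝒪 θ T)
    (q : ℕ) (hq : q.Prime) (hqp : q ≠ p) (hunip : TateUnip D q)
    (P : ValuationSubring (AlgebraicClosure ℚ)) (hP : P.LiesOverPrime q)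
    (σ : GR.H.GQ) (hσ : σ ∈ P.inertiaSubgroupIn ℚ) (n : ℕ) :
    LinearMap.trace T H.ρ.V (H.ρ.ρ σ) - 2 ∈ IsLocalRing.maximalIdeal T ^ n ∧
      LinearMap.det (H.ρ.ρ σ) - 1 ∈ IsLocalRing.maximalIdeal T ^ n := by
  have hcyc : ∀ (k : ℕ) (ζ : AlgebraicClosure ℚ), ζ ^ (p ^ k) = 1 → σ ζ = ζ := by
    intro k ζ hζ
    refine Fermat.Agent.S34.inertia_apply_rootOfUnity P hq hP hσ (m := p ^ k) ?_ hζ
    intro h
    exact hqp ((Nat.prime_dvd_prime_iff_eq hq hp).mp (hq.dvd_of_dvd_pow h))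
  exact Fermat.Agent.S34.trace_det_mem hp hp𝒪 hpS hNS D hinj H σ hcyc (hunip P hP σ hσ) n

/-- S34 in hypothesis form. -/
theorem isUnipotentOnInertiaAt_of_tateData (hp : p.Prime) (D : TateData N p)
    (hinj : Function.Injective D.hecke)
    (hp𝒪 : (p : 𝒪) ∈ IsLocalRing.maximalIdeal 𝒪) (hpS : p ∈ S)
    (hNS : ∀ q : ℕ, q.Prime → q ∣ N → q ∈ S)
    (H : CuspForm.HeckeGaloisRepDatum N (↑S : Set ℕ) 𝒪 θ T)
    (q : ℕ) (hq : q.Prime) (hqp : q ≠ p) (hunip : TateUnip D q) :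
    H.ρ.IsUnipotentOnInertiaAt q :=
  Fermat.Agent.S34.isUnipotentOnInertiaAt_of_tateData hp hp𝒪 hpS hNS D hinj H q hq hqp hunip

end Fermat.Agent.GS.FW
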