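import Fermat.Agent.GR.H.ExtChar
import Fermat.Agent.GR.H.EigenChar

/-!
# GS-FW (W3): two auxiliary statements on Hecke characters
-/

set_option autoImplicit false

open Polynomial
open scoped TensorProduct

namespace Fermat.Agent.GS.FW

open Fermat.Agent.GR.H

/-- the eigencharacter of a normalized eigenform on the full Hecke algebra
(`GR.H.EigenCharA_chi0`, `EigenCharA_heckeTLin`, `EigenCharA_heckeULin`). -/
theorem exists_full_eigenchar {M : ℕ} [NeZero M] {g : CuspForm (CongruenceSubgroup.Gamma0 M) 2}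
    (hg : g.IsNormalizedEigenform) :
    ∃ μ : HeckeFull M →+* ℂ,
      (∀ (ℓ : ℕ) (hℓ : ℓ.Prime) (hℓM : ¬ ℓ ∣ M),
        μ (HeckeFull.T hℓ hℓM) = ModularFormClass.qCoeff g ℓ) ∧
      (∀ (q : ℕ) (hq : q.Prime) (hqM : q ∣ M),
        μ (CuspForm.heckeAlgebra.U hq hqM (Set.notMem_empty q)) = ModularFormClass.qCoeff g q) := by
  refine ⟨EigenCharA_chi0 hg ∅, ?_, ?_⟩
  · intro ℓ hℓ hℓM
    show ModularFormClass.qCoeff ((CuspForm.heckeTLin 2 hℓ hℓM) g) 1 = _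
    rw [EigenCharA_heckeTLin hg hℓ hℓM, Fermat.Agent.S49.qCoeff_smul, hg.qCoeff_one, mul_one]
  · intro q hq hqM
    show ModularFormClass.qCoeff ((CuspForm.heckeULin 2 hqM) g) 1 = _
    rw [EigenCharA_heckeULin hg hq hqM, Fermat.Agent.S49.qCoeff_smul, hg.qCoeff_one, mul_one]

/-- two characters of the anemic Hecke algebra (`S` contains the primes dividing `M`) which agree
on the `T_ℓ` are equal. -/
theorem heckeChar_ext {M : ℕ} [NeZero M] (S : Set ℕ) (hMS : ∀ q : ℕ, q.Prime → q ∣ M → q ∈ S)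
    {R : Type*} [CommRing R] (χ χ' : ↥(CuspForm.heckeAlgebra M 2 S) →+* R)
    (h : ∀ (ℓ : ℕ) (hℓ : ℓ.Prime) (hℓM : ¬ ℓ ∣ M) (hℓS : ℓ ∉ S),
      χ (CuspForm.heckeAlgebra.T hℓ hℓM hℓS) = χ' (CuspForm.heckeAlgebra.T hℓ hℓM hℓS)) :
    χ = χ' := by
  refine RingHom.ext fun t => ?_
  obtain ⟨t, ht⟩ := t
  induction ht using Algebra.adjoin_induction with
  | mem x hx =>
    rcases hx with ⟨ℓ, hℓ, hℓN, hℓS, rfl⟩ | ⟨q, hqN, hq, hqS, rfl⟩
    · exact h ℓ hℓ hℓN hℓS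
    · exact absurd (hMS q hq hqN) hqS
  | algebraMap r =>
    have h1 : (⟨algebraMap ℤ _ r, Subalgebra.algebraMap_mem _ r⟩ :
        ↥(CuspForm.heckeAlgebra M 2 S)) = algebraMap ℤ ↥(CuspForm.heckeAlgebra M 2 S) r := rfl
    rw [h1]
    simp
  | add s t hs ht ihs iht =>
    have h1 : (⟨s + t, add_mem hs ht⟩ : ↥(CuspForm.heckeAlgebra M 2 S)) = ⟨s, hs⟩ + ⟨t, ht⟩ := rfl
    rw [h1, map_add, map_add, ihs, iht]
  | mul s t hs ht ihs iht =>
    have h1 : (⟨s * t, mul_mem hs ht⟩ : ↥(CuspForm.heckeAlgebra M 2 S)) = ⟨s, hs⟩ * ⟨t, ht⟩ := rfl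
    rw [h1, map_mul, map_mul, ihs, iht]

end Fermat.Agent.GS.FW
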