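import Fermat.Agent.GS.FW.GalRepBad
import Fermat.Agent.GS.FW.S35Aux
import Fermat.Agent.GS.FW.ExtChar2
import Fermat.Prelude.Def_CuspForm_Newforms

/-!
# GS-FW (W3): S35 in hypothesis form
-/

set_option autoImplicit false

open Polynomial
open scoped TensorProduct

namespace Fermat.Agent.GS.FW

open Fermat.Agent.GR.H

/-- S35 in hypothesis form. -/
theorem S35_of (cheb : FrobeniusDensity)
    {M : ℕ} [NeZero M] {g : CuspForm (CongruenceSubgroup.Gamma0 M) 2}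
    (hg : g.IsNormalizedEigenform)
    (haq : ∀ q : ℕ, q.Prime → q ∣ M → ¬ q ^ 2 ∣ M → ModularFormClass.qCoeff g q ^ 2 = 1)
    (lam : ℕ) [Fact lam.Prime] (D : TateData M lam)
    (hbad : ∀ (q : ℕ) (hq : q.Prime) (hqM : q ∣ M), q ≠ lam → ¬ q ^ 2 ∣ M → TateFrobBad D hq hqM)
    (S : Finset ℕ)
    (O' : Type) [CommRing O'] [IsDomain O'] [IsDiscreteValuationRing O']
    [IsAdicComplete (IsLocalRing.maximalIdeal O') O'] [Finite (IsLocalRing.ResidueField O')]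
    [CharZero O'] (hlamO' : (lam : O') ∈ IsLocalRing.maximalIdeal O')
    (chig : CuspForm.heckeAlgebra M 2 (↑S : Set ℕ) →+* ℂ)
    (hchig : ∀ (ℓ : ℕ) (hℓ : ℓ.Prime) (hℓM : ¬ ℓ ∣ M) (hℓS : ℓ ∉ (↑S : Set ℕ)),
      chig (CuspForm.heckeAlgebra.T hℓ hℓM hℓS) = ModularFormClass.qCoeff g ℓ)
    (iota : chig.range →+* O')
    (hlamS : lam ∈ S) (hMS : ∀ q : ℕ, q.Prime → q ∣ M → q ∈ S) :
    ∃ (O'' : Type) (_ : CommRing O'') (_ : IsDomain O'') (_ : IsDiscreteValuationRing O'')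
      (_ : IsAdicComplete (IsLocalRing.maximalIdeal O'') O'') (_ : Finite (IsLocalRing.ResidueField O''))
      (_ : CharZero O'') (_ : Algebra O' O'') (_ : Module.Finite O' O'') (_ : IsLocalHom (algebraMap O' O'')),
      Function.Injective (algebraMap O' O'') ∧
      ∃ ρ : GaloisRepAdic O'',
        (∀ (ℓ : ℕ) (hℓ : ℓ.Prime) (hℓM : ¬ ℓ ∣ M) (hℓS : ℓ ∉ (↑S : Set ℕ)),
          ∀ A : ValuationSubring (AlgebraicClosure ℚ), A.LiesOverPrime ℓ →
            ∀ σ : AlgebraicClosure ℚ ≃ₐ[ℚ] AlgebraicClosure ℚ, A.IsFrobeniusAt σ ℓ →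
              LinearMap.charpoly (ρ.ρ σ) =
                X ^ 2 - C (algebraMap O' O'' ((iota.comp chig.rangeRestrict) (CuspForm.heckeAlgebra.T hℓ hℓM hℓS))) * X
                  + C ((ℓ : O''))) ∧
        (∀ q : ℕ, q.Prime → q ≠ lam → q ∣ M → ¬ q ^ 2 ∣ M →
          ∀ A : ValuationSubring (AlgebraicClosure ℚ), A.LiesOverPrime q →
            ∀ σ : AlgebraicClosure ℚ ≃ₐ[ℚ] AlgebraicClosure ℚ, A.IsFrobeniusAt σ q →
              LinearMap.charpoly (ρ.ρ σ) = X ^ 2 - C ((q : O'') + 1) * X + C ((q : O'')) ∨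
              LinearMap.charpoly (ρ.ρ σ) = X ^ 2 + C ((q : O'') + 1) * X + C ((q : O''))) := by
  obtain ⟨μ, hμT, hμU⟩ := exists_full_eigenchar hg
  have hχ : ∀ t, chig t = μ (heckeIncl M (↑S : Set ℕ) t) := by
    have : chig = μ.comp (heckeIncl M (↑S : Set ℕ)) := by
      refine heckeChar_ext (↑S : Set ℕ) (fun q hq hqM => hMS q hq hqM) _ _ ?_
      intro ℓ hℓ hℓM hℓS
      rw [hchig ℓ hℓ hℓM hℓS, RingHom.comp_apply, heckeIncl_T, hμT]
    intro t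
    rw [this]
    rfl
  obtain ⟨O'', i1, i2, i3, i4, i5, i6, i7, i8, i9, hinj, lam', hlam', hker⟩ :=
    exists_extension_char_through M (↑S : Set ℕ) O' μ chig hχ iota
  refine ⟨O'', i1, i2, i3, i4, i5, i6, i7, i8, i9, hinj, ?_⟩
  have hp : (lam : O'') ∈ IsLocalRing.maximalIdeal O'' := by
    have h1 : algebraMap O' O'' (lam : O') ∈ IsLocalRing.maximalIdeal O'' :=
      map_nonunit (algebraMap O' O'') _ hlamO'
    simpa using h1
  obtain ⟨ρ, h1, h2⟩ := exists_galoisRep_bad cheb D O'' hp lam'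
  refine ⟨ρ, ?_, ?_⟩
  · intro ℓ hℓ hℓM hℓS A hA σ hσ
    have hℓp : ℓ ≠ lam := fun h => hℓS (by rw [h]; exact hlamS)
    rw [h1 ℓ hℓ hℓM hℓp A hA σ hσ, ← heckeIncl_T M (↑S : Set ℕ) hℓ hℓM hℓS, hlam']
    rfl
  · intro q hq hqlam hqM hq2 A hA σ hσ
    refine h2 q hq hqM hqlam (hbad q hq hqM hqlam hq2) ?_ A hA σ hσ
    have h3 : μ (CuspForm.heckeAlgebra.U hq hqM (Set.notMem_empty q) ^ 2 - 1) = 0 := by
      rw [map_sub, map_pow, map_one, hμU, haq q hq hqM hq2, sub_self]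
    have h4 := hker _ h3
    rwa [map_sub, map_pow, map_one, sub_eq_zero] at h4

end Fermat.Agent.GS.FW
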