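import Fermat.Agent.GS.FW.Defs
import Fermat.Agent.GR.I.Level

/-!
# GS-FW (W1): from Kummer classes to `TateData`

Same bookkeeping as `GR.I.KummerData.act_frob` / `LevelData.toTateData` (use `theta_surj`,
`act_theta`, `theta_mul`, `theta_pow`, `theta_eq_iff`, `theta_heckeU`, `normStable`,
`LevelData.red_gal`, `LevelData.endCong_of_red`, `LevelData.red_congr`).
-/

set_option autoImplicit false

noncomputable section

namespace Fermat.Agent.GS.FW

open Fermat.Agent.GR Fermat.Agent.GR.H Fermat.Agent.GR.I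

variable {N : ℕ} [NeZero N]

theorem normStable_of_kummerData (D : KummerData N) (n q : ℕ) [NeZero q] (hq : q.Prime)
    (hqN : q ∣ N) (ζ : Qbarˣ) (hζ : IsPrimitiveRoot ζ q) : NormStable N n q ζ :=
  D.normStable n q ζ hq hqN hζ

/-- `u` is a Kummer function whose class is the reduction of `x`. -/
def tateRep (D : KummerData N) (n : ℕ) (u : LaurentSeries Qbar) (x : D.Λ) : Prop :=
  IsKummer (N := N) n u ∧ D.theta n u = D.red n x

omit [NeZero N] in
theorem tate_isKummer_one (n : ℕ) : IsKummer (N := N) n (1 : LaurentSeries Qbar) := by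
  have h := isKummer_C (K := Qbar) (N := N) (n := n) (one_ne_zero : (1 : Qbar) ≠ 0)
  simpa using h

theorem tate_theta_one (D : KummerData N) {n : ℕ} (hn : 0 < n) : D.theta n 1 = 0 := by
  have h := D.theta_mul n hn 1 1 (tate_isKummer_one n) (tate_isKummer_one n)
  rw [mul_one] at h
  exact left_eq_add.mp h

theorem tateRep.mul {D : KummerData N} {n : ℕ} (hn : 0 < n) {u v : LaurentSeries Qbar}
    {x y : D.Λ} (hu : tateRep D n u x) (hv : tateRep D n v y) : tateRep D n (u * v) (x + y) :=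
  ⟨hu.1.mul hv.1, by rw [D.theta_mul n hn u v hu.1 hv.1, hu.2, hv.2, map_add]⟩

theorem tateRep.div {D : KummerData N} {n : ℕ} (hn : 0 < n) {u v : LaurentSeries Qbar}
    {x y : D.Λ} (hu : tateRep D n u x) (hv : tateRep D n v y) : tateRep D n (u / v) (x - y) := by
  refine ⟨hu.1.div hv.1, ?_⟩
  have h := D.theta_mul n hn (u / v) v (hu.1.div hv.1) hv.1
  rw [div_mul_cancel₀ _ hv.1.ne_zero, hu.2, hv.2] at h
  rw [map_sub, h, add_sub_cancel_right]

theorem tateRep.pow {D : KummerData N} {n : ℕ} (hn : 0 < n) {u : LaurentSeries Qbar}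
    {x : D.Λ} (hu : tateRep D n u x) (e : ℕ) : tateRep D n (u ^ e) ((e : ℤ) • x) := by
  refine ⟨hu.1.pow e, ?_⟩
  rcases e with _ | e
  · simp [tate_theta_one D hn]
  · rw [D.theta_pow hn hu.1 e, hu.2, map_zsmul, natCast_zsmul]

theorem tateRep.normT {D : KummerData N} {n : ℕ} (hn : 0 < n) {q : ℕ} [NeZero q] (hq : q.Prime)
    (hqN : q ∣ N) {ζ : Qbarˣ} (hζ : IsPrimitiveRoot ζ q) {u : LaurentSeries Qbar}
    {x : D.Λ} (hu : tateRep D n u x) :
    tateRep D n (normT q ζ u) (D.hecke (CuspForm.heckeAlgebra.U hq hqN (Set.notMem_empty q)) x) :=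
  ⟨D.normStable n q ζ hq hqN hζ u hu.1, D.theta_heckeU n hn q hq hqN ζ hζ u x hu.1 hu.2⟩

/-- the chosen lift of `σ` at level `k`, as an endomorphism of `D.Λ`. -/
def tateGal (D : KummerData N) (hcrux : CruxAll N) (p : ℕ) (hp : p.Prime) (k : ℕ) (σ : GQ) :
    Module.End ℤ D.Λ :=
  (D.toLevelData hcrux p hp).gal k σ

theorem tate_endCong (D : KummerData N) (hcrux : CruxAll N) (p : ℕ) (hp : p.Prime) (k : ℕ)
    (f : Module.End ℤ D.Λ) (h : ∀ x, D.red (p ^ k) (f x) = 0) : EndCong (p ^ k) f 0 :=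
  (D.toLevelData hcrux p hp).endCong_of_red k f 0 fun x => by
    rw [LinearMap.zero_apply, map_zero]
    exact h x

theorem tateRep.gal {D : KummerData N} (hcrux : CruxAll N) {p : ℕ} (hp : p.Prime) (k : ℕ) (σ : GQ)
    {u : LaurentSeries Qbar} {x : D.Λ} (hu : tateRep D (p ^ k) u x) :
    tateRep D (p ^ k) (gal σ u) (tateGal D hcrux p hp k σ x) := by
  refine ⟨galStable (p ^ k) σ _ hu.1, ?_⟩
  have h : D.red (p ^ k) (tateGal D hcrux p hp k σ x) = D.act (p ^ k) σ (D.red (p ^ k) x) :=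
    (D.toLevelData hcrux p hp).red_gal k σ x
  rw [h, ← hu.2, D.act_theta (pow_pos hp.pos k) σ hu.1]

theorem tateRep.red_eq {D : KummerData N} {n : ℕ} (hn : 0 < n) {u v : LaurentSeries Qbar}
    {x y : D.Λ} (hu : tateRep D n u x) (hv : tateRep D n v y) (h : KummerEquiv N n u v) :
    D.red n x = D.red n y := by
  rw [← hu.2, ← hv.2]
  exact (D.theta_eq_iff n hn u v hu.1 hv.1).mpr h

theorem tateRep.red_eq_zero {D : KummerData N} {n : ℕ} (hn : 0 < n) {v : LaurentSeries Qbar}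
    {y : D.Λ} (hv : tateRep D n v y) (h : KummerEquiv N n 1 v) : D.red n y = 0 := by
  rw [← hv.2, ← tate_theta_one D hn]
  exact ((D.theta_eq_iff n hn 1 v (tate_isKummer_one n) hv.1).mpr h).symm

theorem tateUnip_of_unipAt (D : KummerData N) (hcrux : CruxAll N) (p : ℕ) (hp : p.Prime) (q : ℕ)
    (h : ∀ A : ValuationSubring Qbar, A.LiesOverPrime q → ∀ k, UnipAt N (p ^ k) A) :
    TateUnip (D.toLevelData hcrux p hp).toTateData q := by
  intro A hA σ hσ k
  have hn : 0 < p ^ k := pow_pos hp.pos k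
  set g : Module.End ℤ D.Λ := tateGal D hcrux p hp k σ with hg
  have main : EndCong (p ^ k) ((g - 1) * (g - 1)) 0 := by
    refine tate_endCong D hcrux p hp k _ fun x => ?_
    obtain ⟨u, hu, hux⟩ := D.theta_surj (p ^ k) hn x
    have r0 : tateRep D (p ^ k) u x := ⟨hu, hux⟩
    have r1 := r0.gal hcrux hp k σ
    have r2 := r1.gal hcrux hp k σ
    have key := (r1.pow hn 2).red_eq hn (r2.mul hn r0) (h A hA k σ hσ u hu)
    rw [← hg] at key
    have e : ((g - 1) * (g - 1)) x = (g (g x) + x) - ((2 : ℕ) : ℤ) • g x := by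
      simp only [Module.End.mul_apply, LinearMap.sub_apply, Module.End.one_apply, map_sub]
      rw [Nat.cast_ofNat, two_zsmul]
      abel
    rw [e, map_sub, ← key, sub_self]
  exact main

theorem tateFrobBad_of_frobBadAt (D : KummerData N) (hcrux : CruxAll N) (p : ℕ) (hp : p.Prime)
    {q : ℕ} [NeZero q] (hq : q.Prime) (hqN : q ∣ N)
    (h : ∀ A : ValuationSubring Qbar, A.LiesOverPrime q → ∀ k, ∃ ζ : Qbarˣ,
      IsPrimitiveRoot ζ q ∧ FrobBadAt N (p ^ k) q ζ A) :
    TateFrobBad (D.toLevelData hcrux p hp).toTateData hq hqN := by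
  intro A hA σ hσ k
  have hn : 0 < p ^ k := pow_pos hp.pos k
  obtain ⟨ζ, hζ, hF⟩ := h A hA k
  set g : Module.End ℤ D.Λ := tateGal D hcrux p hp k σ with hg
  set U : Module.End ℤ D.Λ := D.hecke (CuspForm.heckeAlgebra.U hq hqN (Set.notMem_empty q)) with hU
  have main : EndCong (p ^ k)
      ((g * g - ((q : ℤ) ^ 2) • 1) * ((g * U - (q : ℤ) • 1) * (g - U))) 0 := by
    refine tate_endCong D hcrux p hp k _ fun x => ?_
    obtain ⟨u, hu, hux⟩ := D.theta_surj (p ^ k) hn x
    have r0 : tateRep D (p ^ k) u x := ⟨hu, hux⟩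
    -- `σ - U_q`
    have r1 : tateRep D (p ^ k) (opA q ζ σ u) (g x - U x) :=
      (r0.gal hcrux hp k σ).div hn (r0.normT hn hq hqN hζ)
    -- `σ U_q - q`
    have r2 : tateRep D (p ^ k) (opB q ζ σ (opA q ζ σ u))
        (g (U (g x - U x)) - (q : ℤ) • (g x - U x)) :=
      ((r1.normT hn hq hqN hζ).gal hcrux hp k σ).div hn (r1.pow hn q)
    -- `σ² - q²`
    have r3 := ((r2.gal hcrux hp k σ).gal hcrux hp k σ).div hn (r2.pow hn (q ^ 2))
    have key := tateRep.red_eq_zero hn r3 (hF σ hσ u hu)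
    rw [← hg] at key
    rw [← key]
    congr 1
  exact main

end Fermat.Agent.GS.FW
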