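import Fermat.Agent.GS.FW.FrobBad
import Fermat.Agent.GS.FW.Descend
import Fermat.Agent.GS.FW.Tate
import Fermat.Agent.GS.FW.S34Of
import Fermat.Agent.GS.FW.S35Of
import Fermat.Agent.GS.AL.Main
import Fermat.Agent.GR.H.Density

/-!
# GS-FW: S34 and S35 from the inputs of GR (KummerData, CruxAll) and of GS-CONC ((U), (K), `w_q`)
-/

set_option autoImplicit false

open Polynomial

namespace Fermat.Agent.GS.FW

open Fermat.Agent.GR Fermat.Agent.GR.H Fermat.Agent.GR.I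

/-- the auxiliary prime: the level must be divisible by `aux q` for the charts of GS-CONC. -/
def aux (q : ℕ) : ℕ := if q = 2 then 3 else 2

/-- INPUT (U) from GS-CONC. -/
def InputU : Prop :=
  ∀ (N : ℕ) [NeZero N] (q n : ℕ) (A : ValuationSubring Qbar), q.Prime → q ∣ N → ¬ q ^ 2 ∣ N →
    ¬ q ∣ n → 0 < n → aux q ∣ N → A.LiesOverPrime q → UnipAt N n A

/-- INPUT (K) from GS-CONC. -/
def InputK : Prop :=
  ∀ (N₁ : ℕ) [NeZero N₁] (q n : ℕ) (A : ValuationSubring Qbar), q.Prime → ¬ q ∣ N₁ →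
    ¬ q ∣ n → 0 < n → aux q ∣ N₁ → A.LiesOverPrime q →
      ∃ w : FF Qbar (N₁ * q) ≃ₐ[Qbar] FF Qbar (N₁ * q), IsAtkinLehner N₁ q w ∧ KAt N₁ q n A w

/-- INPUT from GR. -/
def InputGR : Prop :=
  ∀ (N : ℕ) [NeZero N], CruxAll N ∧ ∃ D : KummerData N, Function.Injective D.hecke

theorem Final_aux_prime (q : ℕ) : (aux q).Prime := by
  unfold aux
  split_ifs
  · exact Nat.prime_three
  · exact Nat.prime_two

theorem Final_aux_ne (q : ℕ) : aux q ≠ q := by
  unfold aux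
  split_ifs with h
  · omega
  · exact fun h' => h h'.symm

theorem Final_coprime_aux {q : ℕ} (hq : q.Prime) : Nat.Coprime q (aux q) :=
  (Nat.coprime_primes hq (Final_aux_prime q)).2 (Final_aux_ne q).symm

theorem unipAt_all (hU : InputU) (N : ℕ) [NeZero N] (q n : ℕ) (A : ValuationSubring Qbar)
    (hq : q.Prime) (hqN : q ∣ N) (hq2 : ¬ q ^ 2 ∣ N) (hqn : ¬ q ∣ n) (hn : 0 < n)
    (hA : A.LiesOverPrime q) : UnipAt N n A := by
  by_cases haux : aux q ∣ N
  · exact hU N q n A hq hqN hq2 hqn hn haux hA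
  · have hr : (aux q).Prime := Final_aux_prime q
    have : NeZero (N * aux q) := ⟨mul_ne_zero (NeZero.ne N) hr.ne_zero⟩
    refine UnipAt.descend hr haux
      (hU (N * aux q) q n A hq (Dvd.dvd.mul_right hqN _) ?_ hqn hn (Dvd.intro_left _ rfl) hA)
    intro h
    exact hq2 (Nat.Coprime.dvd_of_dvd_mul_right (Nat.Coprime.pow_left 2 (Final_coprime_aux hq)) h)

theorem frobBadAt_all (hK : InputK) (hGR : InputGR) (N : ℕ) [NeZero N] (q n : ℕ) [NeZero q]
    (A : ValuationSubring Qbar)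
    (hq : q.Prime) (hqN : q ∣ N) (hq2 : ¬ q ^ 2 ∣ N) (hqn : ¬ q ∣ n) (hn : 0 < n)
    (hA : A.LiesOverPrime q) (ζ : Qbarˣ) (hζ : IsPrimitiveRoot ζ q) : FrobBadAt N n q ζ A := by
  obtain ⟨N₁, hN₁⟩ := hqN
  have hN : N = N₁ * q := by rw [hN₁, mul_comm]
  subst hN
  have : Fact q.Prime := ⟨hq⟩
  have hN₁0 : N₁ ≠ 0 := fun h => NeZero.ne (N₁ * q) (by rw [h, zero_mul])
  have : NeZero N₁ := ⟨hN₁0⟩
  have hqN₁ : ¬ q ∣ N₁ := by
    intro h
    apply hq2
    rw [pow_two]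
    exact Nat.mul_dvd_mul_right h q
  -- the statement at a level `M * q` with `aux q ∣ M`
  have key : ∀ (M : ℕ) [NeZero M], ¬ q ∣ M → aux q ∣ M → FrobBadAt (M * q) n q ζ A := by
    intro M _ hqM haux
    have : NeZero (M * q) := ⟨mul_ne_zero (NeZero.ne M) hq.ne_zero⟩
    obtain ⟨w, hw, hKw⟩ := hK M q n A hq hqM hqn hn haux hA
    obtain ⟨-, D, -⟩ := hGR (M * q)
    exact frobBadAt_of_kAt hqM hw hA ζ hζ
      (normStable_of_kummerData D n q hq (Dvd.intro_left _ rfl) ζ hζ) hKw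
  by_cases haux : aux q ∣ N₁
  · exact key N₁ hqN₁ haux
  · have hr : (aux q).Prime := Final_aux_prime q
    have : NeZero (N₁ * aux q) := ⟨mul_ne_zero hN₁0 hr.ne_zero⟩
    have hrN : ¬ aux q ∣ N₁ * q := by
      intro h
      exact haux (Nat.Coprime.dvd_of_dvd_mul_right (Final_coprime_aux hq).symm h)
    have hqM : ¬ q ∣ N₁ * aux q := by
      intro h
      exact hqN₁ (Nat.Coprime.dvd_of_dvd_mul_right (Final_coprime_aux hq) h)
    have h1 := key (N₁ * aux q) hqM (Dvd.intro_left _ rfl)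
    have h2 : N₁ * aux q * q = N₁ * q * aux q := by ring
    rw [h2] at h1
    exact FrobBadAt.descend (Dvd.intro_left _ rfl) hr hrN ζ hζ h1

/-- the Tate data with all the local information at the primes `q ∥ N`. -/
theorem exists_tateData_ss (hU : InputU) (hK : InputK) (hGR : InputGR) (N : ℕ) [NeZero N] (p : ℕ)
    (hp : p.Prime) :
    ∃ D : TateData N p, Function.Injective D.hecke ∧
      (∀ q : ℕ, q.Prime → q ≠ p → q ∣ N → ¬ q ^ 2 ∣ N → TateUnip D q) ∧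
      (∀ (q : ℕ) (hq : q.Prime) (hqN : q ∣ N), q ≠ p → ¬ q ^ 2 ∣ N → TateFrobBad D hq hqN) := by
  obtain ⟨hcrux, KD, hinj⟩ := hGR N
  have hndvd : ∀ q : ℕ, q.Prime → q ≠ p → ∀ k : ℕ, ¬ q ∣ p ^ k := by
    intro q hq hqp k h
    exact hqp ((Nat.prime_dvd_prime_iff_eq hq hp).1 (hq.dvd_of_dvd_pow h))
  refine ⟨(KD.toLevelData hcrux p hp).toTateData, hinj, ?_, ?_⟩
  · intro q hq hqp hqN hq2
    exact tateUnip_of_unipAt KD hcrux p hp q fun A hA k =>
      unipAt_all hU N q (p ^ k) A hq hqN hq2 (hndvd q hq hqp k) (pow_pos hp.pos k) hA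
  · intro q hq hqN hqp hq2
    have : NeZero q := ⟨hq.ne_zero⟩
    refine tateFrobBad_of_frobBadAt KD hcrux p hp hq hqN fun A hA k => ?_
    obtain ⟨ζ, hζ⟩ := KummerData.exists_primitiveRoot q
    exact ⟨ζ, hζ, frobBadAt_all hK hGR N q (p ^ k) A hq hqN hq2 (hndvd q hq hqp k)
      (pow_pos hp.pos k) hA ζ hζ⟩

end Fermat.Agent.GS.FW
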