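import Mathlib

/-!
# GS-FW: product of the conjugates = norm (abstract)

Embed `Ω` in an algebraic closure `Ω̄`, make it a `K`-algebra through `V`; the `φ i` become `card ι = [L : K]`
distinct elements of `L →ₐ[K] Ω̄`, i.e. all of them (`AlgHom.card`); `Algebra.norm_eq_prod_embeddings`.
-/

set_option autoImplicit false

namespace Fermat.Agent.GS.FW

/-- abstract form: `n` pairwise distinct extensions of an embedding of the base field of an
extension of degree `n`: the product of the conjugates lies in the image of the base field. -/
theorem exists_eq_prod_of_card_embeddings {K L Ω : Type*} [Field K] [Field L] [Field Ω]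
    [Algebra K L] [FiniteDimensional K L] [Algebra.IsSeparable K L] (V : K →+* Ω)
    {ι : Type*} [Fintype ι] (φ : ι → L →+* Ω) (hφ : ∀ i a, φ i (algebraMap K L a) = V a)
    (hinj : Function.Injective φ) (hcard : Fintype.card ι = Module.finrank K L) (x : L) :
    ∏ i, φ i x = V (Algebra.norm K x) := by
  classical
  let _ : Algebra K (AlgebraicClosure Ω) := ((algebraMap Ω (AlgebraicClosure Ω)).comp V).toAlgebra
  let ψ : ι → (L →ₐ[K] AlgebraicClosure Ω) := fun i =>
    { ((algebraMap Ω (AlgebraicClosure Ω)).comp (φ i)) with
      commutes' := fun a => by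
        change algebraMap Ω (AlgebraicClosure Ω) (φ i (algebraMap K L a)) =
          algebraMap Ω (AlgebraicClosure Ω) (V a)
        rw [hφ] }
  have hψ : ∀ i y, ψ i y = algebraMap Ω (AlgebraicClosure Ω) (φ i y) := fun _ _ => rfl
  have hψinj : Function.Injective ψ := by
    intro i j hij
    apply hinj
    ext y
    apply (algebraMap Ω (AlgebraicClosure Ω)).injective
    rw [← hψ, ← hψ, hij]
  have hbij : Function.Bijective ψ := by
    rw [Fintype.bijective_iff_injective_and_card]
    exact ⟨hψinj, by rw [hcard, AlgHom.card]⟩
  apply (algebraMap Ω (AlgebraicClosure Ω)).injective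
  have h1 := Algebra.norm_eq_prod_embeddings K (AlgebraicClosure Ω) x
  have h2 : algebraMap K (AlgebraicClosure Ω) (Algebra.norm K x) =
      algebraMap Ω (AlgebraicClosure Ω) (V (Algebra.norm K x)) := rfl
  rw [← h2, h1, map_prod]
  exact Fintype.prod_bijective ψ hbij _ _ fun i => (hψ i x).symm

end Fermat.Agent.GS.FW
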