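import Fermat.Agent.GS.FW.AL
import Fermat.Agent.GR.E.BR10
import Fermat.Agent.GS.FW.NormAbs

/-!
# GS-FW: the norm identity `N_{F/F₁}(x) = x · U_q (w x)`

`F = FF ℚ̄ (N₁ q) ⊇ F₁ = FF ℚ̄ N₁`, degree `q + 1` (`GR.E.relfinrank_FF_mul_prime`).
FORMAL PROOF.  Put `V = qExpand q`.  The `q + 1` ring homomorphisms `F → ℚ̄((t))`
  `φ_∞ = V`,  `φ_j = scaleHom (ζ^j) ∘ w`  (`j < q`)
all restrict to `V` on `F₁` (`w = V` on `F₁`, and `scaleHom (ζ^j)` fixes series in `t^q`) and are
pairwise distinct: `φ_∞ (j(t^q)) = j(t^(q²))`, `φ_j (j(t^q)) = j(ζ^j t)` (look at the coefficient of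
`t⁻¹`).  So they are all the `F₁`-embeddings of `F` into an algebraic closure of `ℚ̄((t))`
(`F₁` acting through `V`), and `Algebra.norm_eq_prod_embeddings` gives
  `V (N x) = V x · ∏_j scaleHom (ζ^j) (w x) = V (x · normT q ζ (w x))`   (`GR.qExpand_normT`).
-/

set_option autoImplicit false

noncomputable section

namespace Fermat.Agent.GS.FW

open Fermat.Agent.GR Fermat.Agent.GR.H ModularCurve

variable {N₁ q : ℕ} {w : FF Qbar (N₁ * q) ≃ₐ[Qbar] FF Qbar (N₁ * q)}

/-- `t ↦ c t` with `c ^ q = 1` fixes the series in `t ^ q`. -/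
theorem NormId_scaleHom_qExpand [NeZero q] (c : Qbarˣ) (hc : c ^ q = 1) (f : LaurentSeries Qbar) :
    scaleHom c (qExpand Qbar q f) = qExpand Qbar q f := by
  ext n
  rw [scaleHom_coeff]
  by_cases hn : (q : ℤ) ∣ n
  · obtain ⟨m, rfl⟩ := hn
    rw [zpow_mul, zpow_natCast, hc, one_zpow, Units.val_one, one_mul]
  · rw [qExpand_coeff_of_not_dvd q f hn, mul_zero]

/-- the norm identity, in the form used in (F2). -/
theorem mul_normT_mem [NeZero N₁] [NeZero q] (hq : q.Prime) (hqN : ¬ q ∣ N₁)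
    (hw : IsAtkinLehner N₁ q w) (ζ : Qbarˣ) (hζ : IsPrimitiveRoot ζ q) (x : FF Qbar (N₁ * q)) :
    (x : LaurentSeries Qbar) * normT q ζ ((w x : FF Qbar (N₁ * q)) : LaurentSeries Qbar) ∈
      FF Qbar N₁ := by
  classical
  have hle : FF Qbar N₁ ≤ FF Qbar (N₁ * q) := FF_mono (Dvd.intro q rfl)
  have hrank : Module.finrank (FF Qbar N₁) (IntermediateField.extendScalars hle) = q + 1 := by
    rw [← IntermediateField.relfinrank_eq_finrank_of_le hle]
    exact GR.E.relfinrank_FF_mul_prime N₁ q hq hqN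
  have hfd : FiniteDimensional (FF Qbar N₁) (IntermediateField.extendScalars hle) :=
    FiniteDimensional.of_finrank_pos (by rw [hrank]; omega)
  have hchar : CharZero (FF Qbar N₁) := inferInstance
  have hperf : PerfectField (FF Qbar N₁) := inferInstance
  have halg : Algebra.IsAlgebraic (FF Qbar N₁) (IntermediateField.extendScalars hle) :=
    Algebra.IsAlgebraic.of_finite _ _
  have hsep : Algebra.IsSeparable (FF Qbar N₁) (IntermediateField.extendScalars hle) :=
    Algebra.IsAlgebraic.isSeparable_of_perfectField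
  -- the identification of `extendScalars` with `FF (N₁ q)`
  let toF : IntermediateField.extendScalars hle →+* FF Qbar (N₁ * q) :=
    (IntermediateField.extendScalars hle).val.toRingHom.codRestrict (FF Qbar (N₁ * q))
      (fun y => y.2)
  let V : FF Qbar N₁ →+* LaurentSeries Qbar := (qExpand Qbar q).comp (FF Qbar N₁).val.toRingHom
  let φ : Option (Fin q) → IntermediateField.extendScalars hle →+* LaurentSeries Qbar := fun i =>
    match i with
    | none => (qExpand Qbar q).comp (IntermediateField.extendScalars hle).val.toRingHom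
    | some j => (scaleHom (ζ ^ (j : ℕ))).comp
        ((FF Qbar (N₁ * q)).val.toRingHom.comp ((w : FF Qbar (N₁ * q) →+* FF Qbar (N₁ * q)).comp toF))
  have hφ : ∀ i a, φ i (algebraMap (FF Qbar N₁) (IntermediateField.extendScalars hle) a) = V a := by
    intro i a
    cases i with
    | none => rfl
    | some j =>
      change scaleHom (ζ ^ (j : ℕ)) ((w ⟨(a : LaurentSeries Qbar), hle a.2⟩ : FF Qbar (N₁ * q)) :
        LaurentSeries Qbar) = qExpand Qbar q (a : LaurentSeries Qbar)
      rw [hw.apply_of_mem hq ⟨(a : LaurentSeries Qbar), hle a.2⟩ a.2]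
      exact NormId_scaleHom_qExpand _ (by rw [← pow_mul, mul_comm, pow_mul, hζ.pow_eq_one, one_pow]) _
  -- the test element `j(t^q)`
  have : NeZero (1 * q) := ⟨by rw [one_mul]; exact NeZero.ne q⟩
  have hx₁ : qExpand Qbar 1 (jqModC Qbar) ∈ FF Qbar (N₁ * q) :=
    IntermediateField.subset_adjoin _ _ (mem_divisorExpansionsC Qbar (N₁ * q) (one_dvd _))
  have hy₁ : qExpand Qbar (1 * q) (jqModC Qbar) ∈ FF Qbar (N₁ * q) :=
    IntermediateField.subset_adjoin _ _
      (mem_divisorExpansionsC Qbar (N₁ * q) (by rw [one_mul]; exact Dvd.intro_left N₁ rfl))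
  have hwy := (hw 1 (one_dvd _) ⟨_, hx₁⟩ ⟨_, hy₁⟩ rfl rfl).2
  let y₀ : IntermediateField.extendScalars hle := ⟨qExpand Qbar (1 * q) (jqModC Qbar), hy₁⟩
  have hsome : ∀ j : Fin q, (φ (some j) y₀).coeff (-1) = (((ζ ^ (j : ℕ)) ^ (-1 : ℤ) : Qbarˣ) : Qbar) := by
    intro j
    change (scaleHom (ζ ^ (j : ℕ)) ((w ⟨_, hy₁⟩ : FF Qbar (N₁ * q)) : LaurentSeries Qbar)).coeff (-1) = _
    rw [hwy, scaleHom_coeff]
    change _ * (qExpand Qbar 1 (jqModC Qbar)).coeff (-1) = _
    rw [qExpand_one_apply, coeff_jqModC_neg_one, mul_one]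
  have hnone : (φ none y₀).coeff (-1) = 0 := by
    change (qExpand Qbar q (qExpand Qbar (1 * q) (jqModC Qbar))).coeff (-1) = 0
    refine qExpand_coeff_of_not_dvd q _ ?_
    intro hdvd
    have h1 : (q : ℤ) ∣ 1 := (dvd_neg.1 hdvd)
    have h2 : q ∣ 1 := by exact_mod_cast h1
    exact hq.one_lt.ne' (Nat.dvd_one.1 h2)
  have hinj : Function.Injective φ := by
    intro i i' hii
    have hc : (φ i y₀).coeff (-1) = (φ i' y₀).coeff (-1) := by rw [hii]
    cases i with
    | none =>
      cases i' with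
      | none => rfl
      | some j' =>
        rw [hnone, hsome] at hc
        exact absurd hc.symm (Units.ne_zero _)
    | some j =>
      cases i' with
      | none =>
        rw [hnone, hsome] at hc
        exact absurd hc (Units.ne_zero _)
      | some j' =>
        rw [hsome, hsome] at hc
        have h1 : (ζ ^ (j : ℕ)) ^ (-1 : ℤ) = (ζ ^ (j' : ℕ)) ^ (-1 : ℤ) := Units.ext hc
        rw [zpow_neg_one, zpow_neg_one, inv_inj] at h1
        have h2 := hζ.pow_inj j.2 j'.2 h1
        exact congrArg some (Fin.ext h2)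
  have hcard : Fintype.card (Option (Fin q)) =
      Module.finrank (FF Qbar N₁) (IntermediateField.extendScalars hle) := by
    rw [hrank, Fintype.card_option, Fintype.card_fin]
  have key := exists_eq_prod_of_card_embeddings V φ hφ hinj hcard
    (⟨(x : LaurentSeries Qbar), x.2⟩ : IntermediateField.extendScalars hle)
  rw [Fintype.prod_option] at key
  have h1 : ∏ j : Fin q, φ (some j) (⟨(x : LaurentSeries Qbar), x.2⟩ :
      IntermediateField.extendScalars hle) =
      ∏ j ∈ Finset.range q, scaleHom (ζ ^ j) ((w x : FF Qbar (N₁ * q)) : LaurentSeries Qbar) :=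
    Fin.prod_univ_eq_prod_range
      (fun j => scaleHom (ζ ^ j) ((w x : FF Qbar (N₁ * q)) : LaurentSeries Qbar)) q
  rw [h1, ← qExpand_normT q ζ hζ] at key
  change qExpand Qbar q (x : LaurentSeries Qbar) * _ = qExpand Qbar q _ at key
  rw [← map_mul] at key
  rw [qExpand_injective q key]
  exact SetLike.coe_mem _

end Fermat.Agent.GS.FW
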