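import Fermat.Agent.GS.FW.Near

/-!
# GS-FW: calculus of `PowAt` (formal from the calculus of `NearOne`)
-/

set_option autoImplicit false

noncomputable section

namespace Fermat.Agent.GS.FW

open Fermat.Agent.GR Fermat.Agent.GR.H ModularCurve

variable {N N' n : ℕ} {A : ValuationSubring Qbar} {y y' : LaurentSeries Qbar}

/-! ### auxiliary -/

theorem Pow_FF_mono (h : N ∣ N') : FF Qbar N ≤ FF Qbar N' := by
  rw [FF, modularFunctionFieldFullC, IntermediateField.adjoin_le_iff]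
  rintro x ⟨d, hne, hdvd, rfl⟩
  have := hne
  exact jqModCd_mem_full Qbar N' (hdvd.trans h)

theorem Pow_normT_one (q : ℕ) [NeZero q] (ζ : Qbarˣ) (hζ : IsPrimitiveRoot ζ q) :
    normT q ζ (1 : LaurentSeries Qbar) = 1 := by
  apply qExpand_injective (R := Qbar) q
  rw [qExpand_normT q ζ hζ, map_one]
  exact Finset.prod_eq_one (fun j _ => map_one _)

theorem Pow_normT_pow (q : ℕ) [NeZero q] (ζ : Qbarˣ) (hζ : IsPrimitiveRoot ζ q)
    (z : LaurentSeries Qbar) (e : ℕ) : normT q ζ (z ^ e) = normT q ζ z ^ e := by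
  induction e with
  | zero => rw [pow_zero, pow_zero, Pow_normT_one q ζ hζ]
  | succ e ih => rw [pow_succ, pow_succ, normT_mul q ζ hζ, ih]

theorem Pow_normT_ne_zero (q : ℕ) [NeZero q] (ζ : Qbarˣ) (hζ : IsPrimitiveRoot ζ q)
    {z : LaurentSeries Qbar} (hz : z ≠ 0) : normT q ζ z ≠ 0 := by
  intro h0
  have h1 := qExpand_normT q ζ hζ z
  rw [h0, map_zero] at h1
  exact (Finset.prod_ne_zero_iff.mpr (fun j _ => (map_ne_zero (scaleHom (ζ ^ j))).mpr hz)) h1.symm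

/-! ### `PowAt` -/

theorem NearOne.powAt (h : NearOne A N y) : PowAt A N n y :=
  ⟨1, one_mem _, one_ne_zero, by rwa [one_pow, mul_one]⟩

theorem PowAt.mem (h : PowAt A N n y) : y ∈ FF Qbar N := by
  obtain ⟨z, hz, hz0, h⟩ := h
  have h1 := h.mem
  rw [← mul_inv_cancel_right₀ (pow_ne_zero n hz0) y]
  exact mul_mem h1 (inv_mem (pow_mem hz n))

theorem powAt_pow_self {z : LaurentSeries Qbar} (hz : z ∈ FF Qbar N) (hz0 : z ≠ 0) :
    PowAt A N n (z ^ n) := by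
  refine ⟨z⁻¹, inv_mem hz, inv_ne_zero hz0, ?_⟩
  rw [← mul_pow, mul_inv_cancel₀ hz0, one_pow]
  exact nearOne_one

theorem PowAt.mul (h : PowAt A N n y) (h' : PowAt A N n y') : PowAt A N n (y * y') := by
  obtain ⟨z, hz, hz0, h⟩ := h
  obtain ⟨z', hz', hz0', h'⟩ := h'
  refine ⟨z * z', mul_mem hz hz', mul_ne_zero hz0 hz0', ?_⟩
  have h2 := h.mul h'
  have e : y * y' * (z * z') ^ n = y * z ^ n * (y' * z' ^ n) := by
    rw [mul_pow]
    ring
  rwa [e]

theorem PowAt.inv (h : PowAt A N n y) : PowAt A N n y⁻¹ := by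
  obtain ⟨z, hz, hz0, h⟩ := h
  refine ⟨z⁻¹, inv_mem hz, inv_ne_zero hz0, ?_⟩
  have h2 := h.inv
  rwa [mul_inv, ← inv_pow] at h2

theorem PowAt.div (h : PowAt A N n y) (h' : PowAt A N n y') : PowAt A N n (y / y') := by
  rw [div_eq_mul_inv]
  exact h.mul h'.inv

theorem PowAt.pow (h : PowAt A N n y) (e : ℕ) : PowAt A N n (y ^ e) := by
  induction e with
  | zero =>
    rw [pow_zero]
    exact nearOne_one.powAt
  | succ e ih =>
    rw [pow_succ]
    exact ih.mul h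

theorem PowAt.mono (hNN' : N ∣ N') (h : PowAt A N n y) : PowAt A N' n y := by
  obtain ⟨z, hz, hz0, h⟩ := h
  exact ⟨z, Pow_FF_mono hNN' hz, hz0, h.mono hNN'⟩

theorem PowAt.gal {σ : GQ} (hσ : σ ∈ A.decompositionSubgroup ℚ) (h : PowAt A N n y) :
    PowAt A N n (gal σ y) := by
  obtain ⟨z, hz, hz0, h⟩ := h
  refine ⟨GR.gal σ z, coeffMap_mem_FF _ hz, (map_ne_zero (GR.gal σ)).mpr hz0, ?_⟩
  have h2 := h.gal hσ
  rwa [map_mul, map_pow] at h2

theorem PowAt.normT [NeZero N] {q : ℕ} [Fact q.Prime] (hA : A.LiesOverPrime q) (hqN : q ∣ N)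
    (ζ : Qbarˣ) (hζ : IsPrimitiveRoot ζ q) (h : PowAt A N n y) : PowAt A N n (normT q ζ y) := by
  obtain ⟨z, hz, hz0, h⟩ := h
  refine ⟨GR.normT q ζ z, GR.B.normT_mem_FF_Qbar q hqN ζ hζ hz, Pow_normT_ne_zero q ζ hζ hz0, ?_⟩
  have h2 := h.normT hA hqN ζ hζ
  rwa [normT_mul q ζ hζ, Pow_normT_pow q ζ hζ] at h2

theorem PowAt.congr (h : PowAt A N n y) (he : KummerEquiv N n y y') : PowAt A N n y' := by
  obtain ⟨z, hz, hz0, h⟩ := h
  obtain ⟨z₀, hz₀, hz₀0, rfl⟩ := he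
  refine ⟨z / z₀, div_mem hz hz₀, div_ne_zero hz0 hz₀0, ?_⟩
  have e : y * z₀ ^ n * (z / z₀) ^ n = y * z ^ n := by
    rw [mul_assoc, ← mul_pow, mul_div_cancel₀ z hz₀0]
  rwa [e]

/-- the form without constants (for the consumers in GS-CONC). -/
theorem powAt_iff (hn : 0 < n) : PowAt A N n y ↔
    ∃ z ∈ FF Qbar N, z ≠ 0 ∧ ∃ a b : LaurentSeries Qbar, a ∈ FF Qbar N ∧ b ∈ FF Qbar N ∧
      IsPrim A a ∧ IsInt A b ∧ Cong A a b ∧ y * z ^ n = a / b := by
  constructor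
  · rintro ⟨z, hz, hz0, c, a, b, hc, ha, hb, hap, hbi, hab, hy⟩
    obtain ⟨e, he⟩ := IsAlgClosed.exists_pow_nat_eq c⁻¹ hn
    have he0 : e ≠ 0 := by
      rintro rfl
      rw [zero_pow hn.ne'] at he
      exact inv_ne_zero hc he.symm
    have hCe : (HahnSeries.C e : LaurentSeries Qbar) ≠ 0 := by
      intro h0
      apply he0
      have := congrArg (fun f : LaurentSeries Qbar => f.coeff 0) h0
      simpa using this
    refine ⟨z * HahnSeries.C e, mul_mem hz (C_mem_FF e), mul_ne_zero hz0 hCe, a, b, ha, hb, hap,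
      hbi, hab, ?_⟩
    rw [mul_pow, ← mul_assoc, hy, ← map_pow, he, mul_comm, ← mul_assoc, ← map_mul,
      inv_mul_cancel₀ hc, map_one, one_mul]
  · rintro ⟨z, hz, hz0, a, b, ha, hb, hap, hbi, hab, hy⟩
    exact ⟨z, hz, hz0, 1, a, b, one_ne_zero, ha, hb, hap, hbi, hab, by rw [hy, map_one, one_mul]⟩

end Fermat.Agent.GS.FW
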