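import Fermat.Agent.GS.FW.Cong
import Fermat.Agent.GS.FW.Pow
import Fermat.Agent.GS.FW.NormId

/-!
# GS-FW: (F1), (F2) and the relation (F) on Kummer classes; level change

(F1) `opA u = σ u / U u` is `NearOne` (`nearOne_opA`).
(F2) if `y` is an `n`-th power at `v_∞` then so are `Z = opB y = σ (U y) / y^q` and `w Z`:
  `f := w y · U y ∈ F₁` (norm identity for `x = w y`), `w (U y) = f(t^q) / y`, hence
  `w Z = [σ (f(t^q)) / f^q] · [(U y)^q / σ y]`; first factor `NearOne` by (C2), second `PowAt`.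
(F) `u ↦ u₁ = opA u ↦ u₂ = opB u₁`, apply (K) to `u₂`.
-/

set_option autoImplicit false

noncomputable section

namespace Fermat.Agent.GS.FW

open Fermat.Agent.GR Fermat.Agent.GR.H ModularCurve

variable {N n q : ℕ} {A : ValuationSubring Qbar}

theorem FrobBad_ne_zero {y : LaurentSeries Qbar} (h : PowAt A N n y) : y ≠ 0 := by
  obtain ⟨z, _, _, hz⟩ := h
  exact left_ne_zero_of_mul hz.ne_zero

theorem isKummer_opA [NeZero q] {ζ : Qbarˣ} (hstab : NormStable N n q ζ) (σ : GQ)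
    {u : LaurentSeries Qbar} (hu : IsKummer (N := N) n u) :
    IsKummer (N := N) n (opA q ζ σ u) := by
  exact (I.galStable n σ u hu).div (hstab u hu)

theorem isKummer_opB [NeZero q] {ζ : Qbarˣ} (hstab : NormStable N n q ζ) (σ : GQ)
    {u : LaurentSeries Qbar} (hu : IsKummer (N := N) n u) :
    IsKummer (N := N) n (opB q ζ σ u) := by
  exact (I.galStable n σ _ (hstab u hu)).div (hu.pow q)

theorem isKummer_opC (σ : GQ) {u : LaurentSeries Qbar} (hu : IsKummer (N := N) n u) :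
    IsKummer (N := N) n (opC q σ u) := by
  exact (I.galStable n σ _ (I.galStable n σ u hu)).div (hu.pow (q ^ 2))

/-- (F2), first half: `K_∞` is stable under `σ U_q - q`. -/
theorem powAt_opB [NeZero N] [Fact q.Prime] (hA : A.LiesOverPrime q) (hqN : q ∣ N)
    (ζ : Qbarˣ) (hζ : IsPrimitiveRoot ζ q) {σ : GQ} (hσ : A.IsFrobeniusAt σ q)
    {y : LaurentSeries Qbar} (hy : PowAt A N n y) : PowAt A N n (opB q ζ σ y) := by
  exact ((hy.normT hA hqN ζ hζ).gal hσ.mem_decompositionSubgroup).div (hy.pow q)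

/-- (F2), second half: `σ U_q - q` maps `K_∞` into `K_0 = w K_∞`. -/
theorem powAt_w_opB {N₁ : ℕ} [NeZero N₁] [Fact q.Prime] (hqN : ¬ q ∣ N₁)
    {w : FF Qbar (N₁ * q) ≃ₐ[Qbar] FF Qbar (N₁ * q)} (hw : IsAtkinLehner N₁ q w)
    (hA : A.LiesOverPrime q) (ζ : Qbarˣ) (hζ : IsPrimitiveRoot ζ q) {σ : GQ}
    (hσ : A.IsFrobeniusAt σ q) (y Z : FF Qbar (N₁ * q))
    (hy : PowAt A (N₁ * q) n (y : LaurentSeries Qbar))
    (hZ : (Z : LaurentSeries Qbar) = opB q ζ σ (y : LaurentSeries Qbar)) :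
    PowAt A (N₁ * q) n ((w Z : FF Qbar (N₁ * q)) : LaurentSeries Qbar) := by
  have hq : q.Prime := Fact.out
  have hqN' : q ∣ N₁ * q := Dvd.intro_left N₁ rfl
  have hdec := hσ.mem_decompositionSubgroup
  -- the elements of the function field
  have hU : PowAt A (N₁ * q) n (normT q ζ (y : LaurentSeries Qbar)) := hy.normT hA hqN' ζ hζ
  have hσU : PowAt A (N₁ * q) n (gal σ (normT q ζ (y : LaurentSeries Qbar))) := hU.gal hdec
  have hσy : PowAt A (N₁ * q) n (gal σ (y : LaurentSeries Qbar)) := hy.gal hdec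
  have hy0 : (y : LaurentSeries Qbar) ≠ 0 := FrobBad_ne_zero hy
  have hU0 : normT q ζ (y : LaurentSeries Qbar) ≠ 0 := FrobBad_ne_zero hU
  have hσy0 : gal σ (y : LaurentSeries Qbar) ≠ 0 := FrobBad_ne_zero hσy
  set U : FF Qbar (N₁ * q) := ⟨normT q ζ (y : LaurentSeries Qbar), hU.mem⟩ with hUdef
  set σU : FF Qbar (N₁ * q) := ⟨gal σ (normT q ζ (y : LaurentSeries Qbar)), hσU.mem⟩ with hσUdef
  have hwy0 : ((w y : FF Qbar (N₁ * q)) : LaurentSeries Qbar) ≠ 0 := by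
    intro h
    apply hy0
    have h1 : w y = 0 := Subtype.ext h
    have h2 : y = 0 := by simpa using h1
    rw [h2]; rfl
  -- the norm identity
  have hf : ((w y : FF Qbar (N₁ * q)) : LaurentSeries Qbar) * normT q ζ (y : LaurentSeries Qbar) ∈
      FF Qbar N₁ := by
    have := mul_normT_mem hq hqN hw ζ hζ (w y)
    rwa [hw.apply_apply hq y] at this
  set f : LaurentSeries Qbar :=
    ((w y : FF Qbar (N₁ * q)) : LaurentSeries Qbar) * normT q ζ (y : LaurentSeries Qbar) with hfdef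
  have hf0 : f ≠ 0 := mul_ne_zero hwy0 hU0
  set fF : FF Qbar (N₁ * q) := w y * U with hfF
  have hfFc : (fF : LaurentSeries Qbar) = f := rfl
  have hwf : ((w fF : FF Qbar (N₁ * q)) : LaurentSeries Qbar) = qExpand Qbar q f :=
    hw.apply_of_mem hq fF hf
  -- `w U = f(t^q) / y`
  have hwU : ((w U : FF Qbar (N₁ * q)) : LaurentSeries Qbar) =
      qExpand Qbar q f / (y : LaurentSeries Qbar) := by
    rw [eq_div_iff hy0, ← hwf, hfF, map_mul, hw.apply_apply hq y, mul_comm]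
    rfl
  have hwσU : ((w σU : FF Qbar (N₁ * q)) : LaurentSeries Qbar) =
      gal σ (qExpand Qbar q f) / gal σ (y : LaurentSeries Qbar) := by
    rw [hw.gal_comm hq σ U σU rfl, hwU, map_div₀]
  have hZ' : Z = σU / y ^ q := Subtype.ext (by rw [hZ]; rfl)
  have hwZ : ((w Z : FF Qbar (N₁ * q)) : LaurentSeries Qbar) =
      (gal σ (qExpand Qbar q f) / f ^ q) *
        (normT q ζ (y : LaurentSeries Qbar) ^ q / gal σ (y : LaurentSeries Qbar)) := by
    rw [hZ', map_div₀, map_pow]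
    have : (((w σU / w y ^ q : FF Qbar (N₁ * q))) : LaurentSeries Qbar) =
        ((w σU : FF Qbar (N₁ * q)) : LaurentSeries Qbar) /
          ((w y : FF Qbar (N₁ * q)) : LaurentSeries Qbar) ^ q := rfl
    rw [this, hwσU, hfdef, mul_pow]
    field_simp
  rw [hwZ]
  exact (nearOne_gal_qExpand_div_pow hA hσ hf hf0).powAt.mul ((hU.pow q).div hσy)

/-- (F) from (K). -/
theorem frobBadAt_of_kAt {N₁ : ℕ} [NeZero N₁] [Fact q.Prime] (hqN : ¬ q ∣ N₁)
    {w : FF Qbar (N₁ * q) ≃ₐ[Qbar] FF Qbar (N₁ * q)} (hw : IsAtkinLehner N₁ q w)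
    (hA : A.LiesOverPrime q) (ζ : Qbarˣ) (hζ : IsPrimitiveRoot ζ q)
    (hstab : NormStable (N₁ * q) n q ζ) (hK : KAt N₁ q n A w) :
    FrobBadAt (N₁ * q) n q ζ A := by
  intro σ hσ u hu
  have hqN' : q ∣ N₁ * q := Dvd.intro_left N₁ rfl
  have hu1 : IsKummer (N := N₁ * q) n (opA q ζ σ u) := isKummer_opA hstab σ hu
  have hu2 : IsKummer (N := N₁ * q) n (opB q ζ σ (opA q ζ σ u)) := isKummer_opB hstab σ hu1
  have hp1 : PowAt A (N₁ * q) n (opA q ζ σ u) :=
    (nearOne_opA hA hqN' ζ hζ hσ hu.mem hu.ne_zero).powAt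
  have hp2 : PowAt A (N₁ * q) n (opB q ζ σ (opA q ζ σ u)) := powAt_opB hA hqN' ζ hζ hσ hp1
  have hp3 := powAt_w_opB hqN hw hA ζ hζ hσ ⟨opA q ζ σ u, hu1.mem⟩
    ⟨opB q ζ σ (opA q ζ σ u), hu2.mem⟩ hp1 rfl
  exact hK σ hσ ⟨opB q ζ σ (opA q ζ σ u), hu2.mem⟩ hu2 hp2 hp3

end Fermat.Agent.GS.FW
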