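import Fermat.Agent.GS.FW.BigRep
import Fermat.Agent.GS.FW.DetCyc
import Fermat.Agent.GS.FW.Charpoly
import Fermat.Agent.GR.H.S30Main

/-!
# GS-FW (W3): the representation attached to a character of the full Hecke algebra, at `q ∥ N`
-/

set_option autoImplicit false

open Polynomial
open scoped TensorProduct

namespace Fermat.Agent.GS.FW

open Fermat.Agent.GR.H

/-- `GR.H.exists_galoisRep` with the bad primes `q ∥ N` (copy its proof; use `exists_bigRep_cong`,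
`bigRep_frobBad` restricted to the eigenspace, `det_frobenius_any`, `charpoly_of_cubic`). -/
theorem exists_galoisRep_bad (cheb : FrobeniusDensity) {N : ℕ} [NeZero N] {p : ℕ} [Fact p.Prime]
    (D : TateData N p) (𝒪 : Type) [CommRing 𝒪] [IsDomain 𝒪] [IsDiscreteValuationRing 𝒪]
    [IsAdicComplete (IsLocalRing.maximalIdeal 𝒪) 𝒪] [CharZero 𝒪]
    (hp : (p : 𝒪) ∈ IsLocalRing.maximalIdeal 𝒪) (lam : HeckeFull N →+* 𝒪) :
    ∃ ρ : GaloisRepAdic 𝒪,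
      (∀ (ℓ : ℕ) (hℓ : ℓ.Prime) (hℓN : ¬ ℓ ∣ N), ℓ ≠ p →
        ∀ A : ValuationSubring (AlgebraicClosure ℚ), A.LiesOverPrime ℓ →
          ∀ σ : GQ, A.IsFrobeniusAt σ ℓ →
            LinearMap.charpoly (ρ.ρ σ) =
              X ^ 2 - C (lam (HeckeFull.T hℓ hℓN)) * X + C ((ℓ : 𝒪))) ∧
      (∀ (q : ℕ) (hq : q.Prime) (hqN : q ∣ N), q ≠ p → TateFrobBad D hq hqN →
        lam (CuspForm.heckeAlgebra.U hq hqN (Set.notMem_empty q)) ^ 2 = 1 →
        ∀ A : ValuationSubring (AlgebraicClosure ℚ), A.LiesOverPrime q →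
          ∀ σ : GQ, A.IsFrobeniusAt σ q →
            LinearMap.charpoly (ρ.ρ σ) = X ^ 2 - C ((q : 𝒪) + 1) * X + C ((q : 𝒪)) ∨
            LinearMap.charpoly (ρ.ρ σ) = X ^ 2 + C ((q : 𝒪) + 1) * X + C ((q : 𝒪))) := by
  classical
  have hpp : p.Prime := Fact.out
  have hp0 : (p : 𝒪) ≠ 0 := Nat.cast_ne_zero.mpr hpp.ne_zero
  obtain ⟨B, hB⟩ := exists_bigRep_cong D 𝒪 hp
  obtain ⟨ρ, ι, hinj, hrange, hι⟩ :=
    exists_eigenRep D 𝒪 hp hp0 B lam (finrank_eigenSub D 𝒪 lam)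
  have hmem : ∀ v, ι v ∈ eigenSub D.hecke 𝒪 lam := fun v => hrange ▸ LinearMap.mem_range_self ι v
  let S : Finset ℕ := insert p N.primeFactors
  let a : ℕ → 𝒪 := fun ℓ => if h : ℓ.Prime ∧ ¬ ℓ ∣ N then lam (HeckeFull.T h.1 h.2) else 0
  have hS : ∀ ℓ : ℕ, ℓ.Prime → (ℓ ∉ S ↔ ℓ ≠ p ∧ ¬ ℓ ∣ N) := by
    intro ℓ hℓ
    simp [S, Nat.mem_primeFactors, hℓ, NeZero.ne N, not_or]
  have hES : ∀ ℓ : ℕ, ℓ.Prime → ℓ ∉ S → ∀ A : ValuationSubring (AlgebraicClosure ℚ),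
      A.LiesOverPrime ℓ → ∀ σ : GQ, A.IsFrobeniusAt σ ℓ →
        ρ.ρ σ * ρ.ρ σ - a ℓ • ρ.ρ σ + (ℓ : 𝒪) • 1 = 0 := by
    intro ℓ hℓ hℓS A hA σ hσ
    obtain ⟨hℓp, hℓN⟩ := (hS ℓ hℓ).mp hℓS
    have ha : a ℓ = lam (HeckeFull.T hℓ hℓN) := by
      simp only [a]; rw [dif_pos ⟨hℓ, hℓN⟩]
    have hfrob := B.frob ℓ hℓ hℓN hℓp A hA σ hσ
    refine LinearMap.ext fun v => hinj ?_
    have h1 := LinearMap.congr_fun hfrob (ι v)
    have h2 := (mem_eigenSub D.hecke 𝒪 lam _).mp (hmem (ρ.ρ σ v)) (HeckeFull.T hℓ hℓN)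
    simp only [LinearMap.add_apply, LinearMap.sub_apply, Module.End.mul_apply,
      LinearMap.smul_apply, Module.End.one_apply, LinearMap.zero_apply, map_add, map_sub,
      map_smul, map_zero, hι, ha] at h1 h2 ⊢
    rw [h2] at h1
    exact h1
  have hc : ∃ (c : GQ) (x y : ρ.V), x ≠ 0 ∧ y ≠ 0 ∧ ρ.ρ c x = x ∧ ρ.ρ c y = -y := by
    obtain ⟨c, hc⟩ := B.conj
    obtain ⟨x', hx', hx0⟩ := exists_ne_zero_of_finrank_eq_one _ (finrank_eigenSubSign D 𝒪 lam 1)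
    obtain ⟨y', hy', hy0⟩ :=
      exists_ne_zero_of_finrank_eq_one _ (finrank_eigenSubSign D 𝒪 lam (-1))
    rw [mem_eigenSubSign] at hx' hy'
    obtain ⟨x, rfl⟩ : x' ∈ LinearMap.range ι := hrange ▸ hx'.1
    obtain ⟨y, rfl⟩ : y' ∈ LinearMap.range ι := hrange ▸ hy'.1
    refine ⟨c, x, y, fun h => hx0 (by rw [h, map_zero]), fun h => hy0 (by rw [h, map_zero]),
      hinj ?_, hinj ?_⟩
    · rw [hι, hc, hx'.2]; simp
    · rw [hι, hc, hy'.2]; simp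
  refine ⟨ρ, ?_, ?_⟩
  · intro ℓ hℓ hℓN hℓp A hA σ hσ
    have key := charpoly_frobenius cheb p 𝒪 hp ρ S (Finset.mem_insert_self _ _) a hES hc ℓ hℓ
      ((hS ℓ hℓ).mpr ⟨hℓp, hℓN⟩) A hA σ hσ
    have ha : a ℓ = lam (HeckeFull.T hℓ hℓN) := by
      simp only [a]; rw [dif_pos ⟨hℓ, hℓN⟩]
    rw [key, ha]
  · intro q hq hqN hqp hbad ha A hA σ hσ
    have hdet := det_frobenius_any cheb.weak p 𝒪 hp ρ S (Finset.mem_insert_self _ _) a hES hc
      q hq hqp A hA σ hσ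
    have hrel := bigRep_frobBad D 𝒪 hp B hB hq hqN hbad A hA σ hσ
    set U : HeckeFull N := CuspForm.heckeAlgebra.U hq hqN (Set.notMem_empty q) with hU
    have hUι : ∀ v, (D.hecke U).baseChange 𝒪 (ι v) = lam U • ι v := fun v =>
      (mem_eigenSub D.hecke 𝒪 lam _).mp (hmem v) U
    have h1 : ∀ v, (B.r σ - (D.hecke U).baseChange 𝒪) (ι v) = ι ((ρ.ρ σ - lam U • 1) v) := by
      intro v
      simp only [LinearMap.sub_apply, LinearMap.smul_apply, Module.End.one_apply, map_sub,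
        map_smul, hι, hUι]
    have h2 : ∀ v, (B.r σ * (D.hecke U).baseChange 𝒪 - (q : 𝒪) • 1) (ι v) =
        ι ((lam U • ρ.ρ σ - (q : 𝒪) • 1) v) := by
      intro v
      simp only [LinearMap.sub_apply, LinearMap.smul_apply, Module.End.one_apply, map_sub,
        map_smul, hι, hUι, Module.End.mul_apply]
    have h3 : ∀ v, (B.r σ * B.r σ - ((q : 𝒪) ^ 2) • 1) (ι v) =
        ι ((ρ.ρ σ * ρ.ρ σ - ((q : 𝒪) ^ 2) • 1) v) := by
      intro v
      simp only [LinearMap.sub_apply, LinearMap.smul_apply, Module.End.one_apply, map_sub,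
        map_smul, hι, Module.End.mul_apply]
    refine charpoly_of_cubic ρ.finrank_eq (ρ.ρ σ) q hq.one_lt (lam U) ha ?_ hdet
    refine LinearMap.ext fun v => hinj ?_
    have h4 := LinearMap.congr_fun hrel (ι v)
    rw [Module.End.mul_apply, Module.End.mul_apply, h1, h2, h3] at h4
    rw [Module.End.mul_apply, Module.End.mul_apply, h4]
    simp

end Fermat.Agent.GS.FW
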