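import Fermat.Agent.GS.FW.Defs
import Fermat.Agent.GR.B.Export

/-!
# GS-FW: calculus of `NearOne`

Everything is formal from GR-F (`incl`, `red`, `isPrim_iff`, `isInt_iff`, `cong_incl_iff`, `isPrim_incl_iff`,
`actA`, `incl_coeffMap_actA`, `coeffMap_normT`, `normT_one_char`, `exists_unit_of_pow_eq_one`,
`GR.B.normT_mem_FF_Qbar`); compare the proof of `GR.kummerEquiv_of_cong`.
-/

set_option autoImplicit false

noncomputable section

namespace Fermat.Agent.GS.FW

open Fermat.Agent.GR Fermat.Agent.GR.H ModularCurve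

variable {N N' n : ℕ} {A : ValuationSubring Qbar} {y y' : LaurentSeries Qbar}

/-! ### helper lemmas -/

theorem Near_iff : NearOne A N y ↔ ∃ (c : Qbar) (f g : LaurentSeries A), c ≠ 0 ∧
    incl A f ∈ FF Qbar N ∧ incl A g ∈ FF Qbar N ∧ red A f = red A g ∧ red A f ≠ 0 ∧
    y = HahnSeries.C c * (incl A f / incl A g) := by
  constructor
  · rintro ⟨c, a, b, hc, ha, hb, hpa, hib, hab, rfl⟩
    obtain ⟨f, rfl, hf⟩ := (isPrim_iff A).mp hpa
    obtain ⟨g, rfl⟩ := (isInt_iff A).mp hib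
    exact ⟨c, f, g, hc, ha, hb, (cong_incl_iff A f g).mp hab, hf, rfl⟩
  · rintro ⟨c, f, g, hc, hf, hg, hfg, hf0, rfl⟩
    exact ⟨c, incl A f, incl A g, hc, hf, hg, (isPrim_incl_iff A f).mpr hf0,
      (isInt_iff A).mpr ⟨g, rfl⟩, (cong_incl_iff A f g).mpr hfg, rfl⟩

theorem Near_incl_ne_zero {x : LaurentSeries A} (hx : red A x ≠ 0) : incl A x ≠ 0 := by
  intro h0
  apply hx
  rw [show x = 0 from incl_injective A (by rw [h0, map_zero]), map_zero]

theorem Near_C_ne_zero {c : Qbar} (hc : c ≠ 0) : (HahnSeries.C c : LaurentSeries Qbar) ≠ 0 := by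
  simpa using hc

theorem Near_FF_le (hNN' : N ∣ N') : FF Qbar N ≤ FF Qbar N' := by
  unfold FF modularFunctionFieldFullC
  apply IntermediateField.adjoin.mono
  rintro x ⟨d, hne, hd, rfl⟩
  exact ⟨d, hne, hd.trans hNN', rfl⟩

theorem Near_red_actA_coeff (τ : A.decompositionSubgroup ℚ) (f : LaurentSeries A) (k : ℤ) :
    (red A (coeffMap (actA A τ) f)).coeff k = τ • (red A f).coeff k := by
  have h : IsLocalRing.residue A (τ • f.coeff k) = τ • IsLocalRing.residue A (f.coeff k) :=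
    IsLocalRing.ResidueField.residue_smul _ τ (f.coeff k)
  exact h

/-- the norm operator as a homomorphism. -/
def Near_normTHom (q : ℕ) [NeZero q] (ζ : Qbarˣ) (hζ : IsPrimitiveRoot ζ q) :
    LaurentSeries Qbar →*₀ LaurentSeries Qbar where
  toFun := GR.normT q ζ
  map_zero' := by
    have h := normT_C q ζ (0 : Qbar)
    simpa [NeZero.ne q] using h
  map_one' := by
    have h := normT_C q ζ (1 : Qbar)
    simpa using h
  map_mul' := normT_mul q ζ hζ

/-! ### `NearOne` -/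

theorem NearOne.mem (h : NearOne A N y) : y ∈ FF Qbar N := by
  obtain ⟨c, a, b, -, ha, hb, -, -, -, rfl⟩ := h
  exact mul_mem (C_mem_FF c) (div_mem ha hb)

theorem NearOne.ne_zero (h : NearOne A N y) : y ≠ 0 := by
  obtain ⟨c, f, g, hc, -, -, hfg, hf0, rfl⟩ := Near_iff.mp h
  exact mul_ne_zero (Near_C_ne_zero hc)
    (div_ne_zero (Near_incl_ne_zero hf0) (Near_incl_ne_zero (hfg ▸ hf0)))

theorem nearOne_C {c : Qbar} (hc : c ≠ 0) : NearOne A N (HahnSeries.C c) := by
  refine Near_iff.mpr ⟨c, 1, 1, hc, ?_, ?_, rfl, ?_, ?_⟩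
  · rw [map_one]; exact one_mem _
  · rw [map_one]; exact one_mem _
  · rw [map_one]; exact one_ne_zero
  · rw [map_one, div_one, mul_one]

theorem nearOne_one : NearOne A N 1 := by
  have h := nearOne_C (A := A) (N := N) (one_ne_zero : (1 : Qbar) ≠ 0)
  rwa [map_one] at h

theorem NearOne.mul (h : NearOne A N y) (h' : NearOne A N y') : NearOne A N (y * y') := by
  obtain ⟨c, f, g, hc, hf, hg, hfg, hf0, rfl⟩ := Near_iff.mp h
  obtain ⟨c', f', g', hc', hf', hg', hfg', hf0', rfl⟩ := Near_iff.mp h'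
  refine Near_iff.mpr ⟨c * c', f * f', g * g', mul_ne_zero hc hc', ?_, ?_, ?_, ?_, ?_⟩
  · rw [map_mul]; exact mul_mem hf hf'
  · rw [map_mul]; exact mul_mem hg hg'
  · rw [map_mul, map_mul, hfg, hfg']
  · rw [map_mul]; exact mul_ne_zero hf0 hf0'
  · rw [map_mul, map_mul, map_mul]
    have h1 := Near_incl_ne_zero (hfg ▸ hf0)
    have h2 := Near_incl_ne_zero (hfg' ▸ hf0')
    field_simp

theorem NearOne.inv (h : NearOne A N y) : NearOne A N y⁻¹ := by
  obtain ⟨c, f, g, hc, hf, hg, hfg, hf0, rfl⟩ := Near_iff.mp h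
  refine Near_iff.mpr ⟨c⁻¹, g, f, inv_ne_zero hc, hg, hf, hfg.symm, hfg ▸ hf0, ?_⟩
  rw [mul_inv, inv_div, map_inv₀]

theorem NearOne.div (h : NearOne A N y) (h' : NearOne A N y') : NearOne A N (y / y') := by
  rw [div_eq_mul_inv]
  exact h.mul h'.inv

theorem NearOne.pow (h : NearOne A N y) (e : ℕ) : NearOne A N (y ^ e) := by
  induction e with
  | zero => rw [pow_zero]; exact nearOne_one
  | succ e ih => rw [pow_succ]; exact ih.mul h

theorem NearOne.mono (hNN' : N ∣ N') (h : NearOne A N y) : NearOne A N' y := by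
  obtain ⟨c, a, b, hc, ha, hb, hpa, hib, hab, rfl⟩ := h
  exact ⟨c, a, b, hc, Near_FF_le hNN' ha, Near_FF_le hNN' hb, hpa, hib, hab, rfl⟩

theorem NearOne.gal {σ : GQ} (hσ : σ ∈ A.decompositionSubgroup ℚ) (h : NearOne A N y) :
    NearOne A N (gal σ y) := by
  obtain ⟨c, f, g, hc, hf, hg, hfg, hf0, rfl⟩ := Near_iff.mp h
  set τ : A.decompositionSubgroup ℚ := ⟨σ, hσ⟩ with hτ
  have hi : ∀ x : LaurentSeries A, incl A (coeffMap (actA A τ) x) = GR.gal σ (incl A x) :=
    fun x => incl_coeffMap_actA A τ x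
  refine Near_iff.mpr ⟨σ c, coeffMap (actA A τ) f, coeffMap (actA A τ) g,
    (map_ne_zero _).mpr hc, ?_, ?_, ?_, ?_, ?_⟩
  · rw [hi]; exact coeffMap_mem_FF _ hf
  · rw [hi]; exact coeffMap_mem_FF _ hg
  · ext k
    rw [Near_red_actA_coeff, Near_red_actA_coeff, hfg]
  · intro h0
    apply hf0
    ext k
    have h1 := congrArg (fun s => s.coeff k) h0
    simp only [Near_red_actA_coeff, HahnSeries.coeff_zero] at h1
    rw [HahnSeries.coeff_zero]
    exact (smul_eq_zero_iff_eq τ).mp h1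
  · rw [hi, hi, map_mul, map_div₀, gal_C]

theorem NearOne.normT [NeZero N] {q : ℕ} [Fact q.Prime] (hA : A.LiesOverPrime q) (hqN : q ∣ N)
    (ζ : Qbarˣ) (hζ : IsPrimitiveRoot ζ q) (h : NearOne A N y) : NearOne A N (normT q ζ y) := by
  obtain ⟨c, f, g, hc, hf, hg, hfg, hf0, rfl⟩ := Near_iff.mp h
  have := charP_residueField A hA
  obtain ⟨z, hz, hz1⟩ := exists_unit_of_pow_eq_one A hA ζ hζ.pow_eq_one
  have hfrobinj : Function.Injective
      (coeffMap (frobenius (IsLocalRing.ResidueField A) q)) := by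
    intro x y hxy
    ext k
    have := congrArg (fun s => s.coeff k) hxy
    exact (frobenius (IsLocalRing.ResidueField A) q).injective this
  have hi : ∀ x : LaurentSeries A, incl A (GR.normT q z x) = GR.normT q ζ (incl A x) := by
    intro x
    rw [incl, coeffMap_normT, hz]
  have hr : ∀ x : LaurentSeries A, red A (GR.normT q z x) =
      coeffMap (frobenius (IsLocalRing.ResidueField A) q) (red A x) := by
    intro x
    rw [red, coeffMap_normT, hz1, normT_one_char]
  refine Near_iff.mpr ⟨c ^ q, GR.normT q z f, GR.normT q z g, pow_ne_zero _ hc, ?_, ?_, ?_, ?_, ?_⟩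
  · rw [hi]; exact GR.B.normT_mem_FF_Qbar q hqN ζ hζ hf
  · rw [hi]; exact GR.B.normT_mem_FF_Qbar q hqN ζ hζ hg
  · rw [hr, hr, hfg]
  · rw [hr]
    exact fun h => hf0 (hfrobinj (by rw [h, map_zero]))
  · rw [hi, hi]
    have h1 := map_mul (Near_normTHom q ζ hζ) (HahnSeries.C c) (incl A f / incl A g)
    have h2 := map_div₀ (Near_normTHom q ζ hζ) (incl A f) (incl A g)
    rw [h2] at h1
    have h3 : Near_normTHom q ζ hζ (HahnSeries.C c) = HahnSeries.C (c ^ q) := normT_C q ζ c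
    rw [h3] at h1
    exact h1

end Fermat.Agent.GS.FW
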