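import Fermat.Agent.GS.FW.Defs
import Fermat.Agent.S31.Of
import Fermat.Agent.GR.H.Cyc
import Fermat.Agent.S05.Inertia

/-!
# GS-FW (W3): three auxiliary statements for S34
-/

set_option autoImplicit false

namespace Fermat.Agent.GS.FW

open CuspForm Fermat.Agent.GR.H Fermat.Agent.S31

/-- the Hecke-Galois module `Λ / p ^ k Λ` of `S31.exists_heckeGaloisModule`, with its projection
(copy the proof of `S31.exists_heckeGaloisModule`). -/
theorem exists_heckeGaloisModule_proj {N : ℕ} [NeZero N] {p : ℕ} (S : Set ℕ) (hpS : p ∈ S)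
    (D : TateData N p) (k : ℕ) :
    ∃ (M : HeckeGaloisModule N S p k) (pr : D.Λ →+ M.W), Function.Surjective pr ∧
      (∀ x, pr x = 0 ↔ ∃ y, x = ((p ^ k : ℕ) : ℤ) • y) ∧
      (∀ σ x, M.r σ (pr x) = pr (D.gal k σ x)) ∧
      (∀ (a : heckeAlgebra N 2 S) x, a • pr x =
        pr (D.hecke (Subalgebra.inclusion (heckeAlgebra_mono (Set.empty_subset S)) a) x)) := by
  classical
  let ι : heckeAlgebra N 2 S →+* GR.H.HeckeFull N :=
    (Subalgebra.inclusion (heckeAlgebra_mono (Set.empty_subset S))).toRingHom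
  let red := Bridge_red (Λ := D.Λ) (p ^ k)
  let ψ : heckeAlgebra N 2 S →+* Module.End ℤ (D.Λ ⧸ Bridge_sub D.Λ (p ^ k)) :=
    red.comp (D.hecke.comp ι)
  let g : S31.GQ → Module.End ℤ (D.Λ ⧸ Bridge_sub D.Λ (p ^ k)) := fun σ => red (D.gal k σ)
  have h1 : g 1 = 1 := by
    show red (D.gal k 1) = 1
    rw [← map_one red]
    exact Bridge_red_eq _ (D.gal_one k)
  have hmul : ∀ σ τ, g (σ * τ) = g σ * g τ := fun σ τ => by
    show red (D.gal k (σ * τ)) = red (D.gal k σ) * red (D.gal k τ)
    rw [← map_mul red]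
    exact Bridge_red_eq _ (D.gal_mul k σ τ)
  have hcomm : ∀ σ t, g σ * ψ t = ψ t * g σ := fun σ t => by
    show red (D.gal k σ) * red (D.hecke (ι t)) = red (D.hecke (ι t)) * red (D.gal k σ)
    rw [← map_mul red, ← map_mul red]
    exact Bridge_red_eq _ (D.gal_hecke k σ (ι t))
  let inst : Module (heckeAlgebra N 2 S) (D.Λ ⧸ Bridge_sub D.Λ (p ^ k)) := Module.compHom _ ψ
  refine ⟨{ W := D.Λ ⧸ Bridge_sub D.Λ (p ^ k)
            instAddCommGroup := inferInstance
            instModule := inst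
            r := Bridge_rep ψ g h1 hmul hcomm
            level := ?_
            killed := ?_
            eichlerShimura := ?_
            unramified := ?_ }, (Submodule.mkQ (Bridge_sub D.Λ (p ^ k))).toAddMonoidHom,
            Submodule.mkQ_surjective _, ?_, ?_, ?_⟩
  · obtain ⟨L, hL, hL'⟩ := D.gal_level k
    refine ⟨L, hL, fun σ hσ => LinearMap.ext fun w => ?_⟩
    have : g σ = 1 := by
      show red (D.gal k σ) = 1
      rw [← map_one red]
      exact Bridge_red_eq _ (hL' σ hσ)
    exact LinearMap.congr_fun this w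
  · intro w
    induction w using Submodule.Quotient.induction_on with
    | _ x =>
      rw [← Submodule.Quotient.mk_smul, Submodule.Quotient.mk_eq_zero]
      exact (Bridge_mem_sub _).mpr ⟨x, (natCast_zsmul _ _).symm⟩
  · intro ℓ hℓ hℓN hℓS A hA σ hσ w
    have hℓp : ℓ ≠ p := fun h => hℓS (h ▸ hpS)
    have key := Bridge_red_eq _ (D.gal_frob ℓ hℓ hℓN hℓp A hA σ hσ k)
    have key' := LinearMap.congr_fun key w
    have e1 : ι (heckeAlgebra.T hℓ hℓN hℓS) = GR.H.HeckeFull.T hℓ hℓN := Subtype.ext rfl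
    have e2 : ψ (ℓ : heckeAlgebra N 2 S) = red ((ℓ : ℤ) • 1) := by
      show red (D.hecke (ι (ℓ : heckeAlgebra N 2 S))) = _
      rw [map_natCast, map_natCast]
      congr 1
      simp
    show g σ (g σ w) - ψ (heckeAlgebra.T hℓ hℓN hℓS) (g σ w) + ψ (ℓ : heckeAlgebra N 2 S) w = 0
    rw [e2]
    show red (D.gal k σ) (red (D.gal k σ) w) -
      red (D.hecke (ι (heckeAlgebra.T hℓ hℓN hℓS))) (red (D.gal k σ) w) + _ = 0
    rw [e1]
    rw [map_add, map_sub, map_mul, map_mul, map_zero] at key'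
    exact key'
  · intro q hq hqN hqp P hP σ hσ
    refine LinearMap.ext fun w => ?_
    have : g σ = 1 := by
      show red (D.gal k σ) = 1
      rw [← map_one red]
      exact Bridge_red_eq _ (D.gal_unram q hq hqN hqp P hP σ hσ k)
    exact LinearMap.congr_fun this w
  · intro x
    show (Submodule.Quotient.mk x : D.Λ ⧸ Bridge_sub D.Λ (p ^ k)) = 0 ↔ _
    rw [Submodule.Quotient.mk_eq_zero]
    exact Bridge_mem_sub _
  · intro σ x
    rfl
  · intro a x
    rfl

/-- inertia at `q` fixes the roots of unity of order prime to `q`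
(`GR.H.Cyc_eq_of_sub_mem`). -/
theorem inertia_rootOfUnity (A : ValuationSubring (AlgebraicClosure ℚ)) (q : ℕ) (hq : q.Prime)
    (hA : A.LiesOverPrime q) (σ : GR.H.GQ) (hσ : σ ∈ A.inertiaSubgroupIn ℚ) (m : ℕ) (hm : ¬ q ∣ m)
    (ζ : AlgebraicClosure ℚ) (hζ : ζ ^ m = 1) : σ ζ = ζ := by
  have hm0 : m ≠ 0 := by rintro rfl; exact hm (dvd_zero _)
  have hζA : ζ ∈ A := by
    rw [← A.valuation_le_one_iff]
    have h1 : A.valuation ζ ^ m = 1 := by rw [← map_pow, hζ, map_one]
    exact ((pow_eq_one_iff.mp h1).resolve_right hm0).le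
  exact Cyc_eq_of_sub_mem A q hq hA m hm (σ ζ) ζ (by rw [← map_pow, hζ, map_one]) hζ
    (Fermat.Agent.S05.inertia_sub_mem A hσ hζA)

/-- rank two: the characteristic polynomial from trace and determinant. -/
theorem charpoly_eq_of_trace_det {R V : Type*} [CommRing R] [Nontrivial R] [AddCommGroup V]
    [Module R V] [Module.Free R V] [Module.Finite R V] (hV : Module.finrank R V = 2)
    (f : Module.End R V) :
    LinearMap.charpoly f = Polynomial.X ^ 2 - Polynomial.C (LinearMap.trace R V f) * Polynomial.X +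
      Polynomial.C (LinearMap.det f) := by
  let b : Module.Basis (Fin 2) R V := Module.finBasisOfFinrankEq R V hV
  rw [← LinearMap.charpoly_toMatrix f b, Matrix.charpoly_fin_two,
    LinearMap.trace_eq_matrix_trace R b, LinearMap.det_toMatrix]

end Fermat.Agent.GS.FW
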